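import Fermat.Agent.DeligneSerre.Field.Bridge

/-!
# The function field of `X₁(M)` over the algebraic numbers
-/

set_option autoImplicit false
set_option linter.unusedSectionVars false
set_option linter.style.haveILetI false
set_option maxHeartbeats 1000000
set_option synthInstance.maxHeartbeats 400000

noncomputable section

open UpperHalfPlane hiding I I_re I_im
open Filter Topology Complex Function FLTAgent.ModEq FLTAgent.GoodModel ModularCurve
open scoped MatrixGroups IntermediateField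

namespace FLTAgent.DeligneSerre

open FLTAgent.X0Fn (iota iota_injective iota_algebraMap)

local notation "LL" => AlgebraicClosure ℚ
local notation "GG" => (AlgebraicClosure ℚ ≃ₐ[ℚ] AlgebraicClosure ℚ)

variable (M : ℕ) [NeZero M] (κ : LL →+* ℂ)

/-- The `q`-scaling. -/
abbrev sc : LaurentSeries LL →ₐ[LL] LaurentSeries LL := substAlg (1 : LLˣ) M

theorem sc_eq (x : LaurentSeries LL) : sc M x = qExpand LL M x := by
  rw [substAlg_apply, substHom_one]

theorem sc_injective : Injective (sc M) := fun x y h =>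
  qExpand_injective M (by rwa [← sc_eq, ← sc_eq])

theorem pSer_coeff_eq_zero {R : Type*} [CommRing R] (ξ : Rˣ) (a b : ZMod M) {k : ℤ}
    (hk : ¬ (M : ℤ) ∣ k) : (pSer M ξ a b).coeff k = 0 := by
  rcases lt_or_ge k 0 with h | h
  · exact ofPowerSeries_coeff_of_neg _ h
  lift k to ℕ using h
  have h0 : k ≠ 0 := fun h0 => hk (by simp [h0])
  have hw : ∀ w : Rˣ, wcoef M 0 w k = 0 := fun w => Finset.sum_eq_zero fun d hd => by
    have hdk := (Nat.mem_divisors.mp hd).1
    have hn : ¬ (M : ℤ) ∣ ((k / d : ℕ) : ℤ) := fun h' => hk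
      (Int.natCast_dvd_natCast.2 ((Int.natCast_dvd_natCast.1 h').trans (Nat.div_dvd_of_dvd hdk)))
    rw [sub_zero, add_zero, if_neg hn, if_neg hn, add_zero, mul_zero]
  rw [pSer, HahnSeries.ofPowerSeries_apply_coeff, map_sub, wser_coeff_pos _ _ _ h0,
    wser_coeff_pos _ _ _ h0, hw, hw, sub_self]

theorem exists_gLL (i : GenIdx M) : ∃ z : LaurentSeries LL, sc M z = genSer M (xi M κ) i := by
  obtain ⟨z₁, h₁⟩ := Mazur.exists_qExpand_eq (N := M) (X := pSer M (xi M κ) i.1.1.1 i.1.1.2)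
    fun k hk => pSer_coeff_eq_zero M _ _ _ hk
  obtain ⟨z₂, h₂⟩ := Mazur.exists_qExpand_eq (N := M) (X := pSer M (xi M κ) i.1.2.1 i.1.2.2)
    fun k hk => pSer_coeff_eq_zero M _ _ _ hk
  exact ⟨z₁ / z₂, by rw [map_div₀, sc_eq, sc_eq, h₁, h₂, genSer]⟩

/-- The generators in the parameter `q`. -/
def gLL (i : GenIdx M) : LaurentSeries LL := (exists_gLL M κ i).choose

theorem sc_gLL (i : GenIdx M) : sc M (gLL M κ i) = genSer M (xi M κ) i :=
  (exists_gLL M κ i).choose_spec

/-- All generators. -/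
def gsetLL : Set (LaurentSeries LL) :=
  insert (jqModC LL) (insert (qExpand LL M (jqModC LL)) (Set.range (gLL M κ)))

/-- The field. -/
def fieldLL : IntermediateField LL (LaurentSeries LL) := IntermediateField.adjoin LL (gsetLL M κ)

theorem jq_mem_fieldLL : jqModC LL ∈ fieldLL M κ :=
  IntermediateField.subset_adjoin LL _ (Set.mem_insert _ _)

/-- The generators are reductions of invariant functions. -/
theorem exists_rep_gen {x : LaurentSeries LL} (hx : x ∈ gsetLL M κ) :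
    ∃ f : invRing (S := κ.range) (M := M) (pmGamma1 M),
      sc M x = red (phiK κ) (f : modRing κ.range M) := by
  rcases hx with rfl | rfl | ⟨i, rfl⟩
  · exact ⟨⟨jm (zetaS M κ) (coe_zetaS M κ), mem_invRing.mpr fun g _ => transl_jm _ _ g⟩,
      (scale_jq M).trans (red_jm (zetaS M κ) (coe_zetaS M κ) _).symm⟩
  · exact ⟨⟨_, invRing_le (pmGamma1_le_Gamma0 M) (xm (zetaS M κ) (coe_zetaS M κ)).2⟩,
      (scale_jqN M M).trans (red_xm _ (zetaS M κ) (coe_zetaS M κ)).symm⟩
  · exact ⟨gen (zetaS M κ) (coe_zetaS M κ) (isUnit_natCast_range M κ) i, by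
      rw [red_gen, map_zetaS, sc_gLL]⟩

theorem iota_rep {x : LaurentSeries LL} {f : invRing (S := κ.range) (M := M) (pmGamma1 M)}
    (h : sc M x = red (phiK κ) (f : modRing κ.range M)) :
    iota (N := M) κ x = Tors.expW M (Tors.gammaPM M) (toW f) := by
  rw [iota_eq_coeffMap, h, coeffMap_red]

theorem fieldLL_le_rat : fieldLL M κ ≤ Tors.ratField M (Tors.gammaPM M) κ :=
  IntermediateField.adjoin_le_iff.2 fun x hx => by
    obtain ⟨f, hf⟩ := exists_rep_gen M κ hx
    exact ⟨toW f, 1, Tors.one_ne_zero_W, by rw [map_one, mul_one, iota_rep M κ hf]⟩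

theorem map_fieldLL : (fieldLL M κ).map (sc M) = levelField (phiK κ)
    (gens (zetaS M κ) (coe_zetaS M κ) (isUnit_natCast_range M κ)) := by
  rw [fieldLL, IntermediateField.adjoin_map, levelField]
  congr 1
  rw [gsetLL, gens, Set.image_insert_eq, Set.image_insert_eq, Set.image_insert_eq,
    ← Set.range_comp, ← Set.range_comp, Set.singleton_union, scale_jq, scale_jqN]
  simp only [red_xm, Function.comp_def, red_gen, map_zetaS, sc_gLL]

theorem finrank_extendScalars_map {K Ω Ω' : Type*} [Field K] [Field Ω] [Field Ω'] [Algebra K Ω]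
    [Algebra K Ω'] (s : Ω →ₐ[K] Ω') {A F : IntermediateField K Ω} {A' F' : IntermediateField K Ω'}
    (h : A ≤ F) (h' : A' ≤ F') (hA : A.map s = A') (hF : F.map s = F') :
    Module.finrank A (IntermediateField.extendScalars h) =
      Module.finrank A' (IntermediateField.extendScalars h') := by
  subst hA hF
  exact Algebra.finrank_eq_of_equiv_equiv (A.equivMap s).toRingEquiv
    ((F.equivMap s).toRingEquiv : IntermediateField.extendScalars h ≃+*
      IntermediateField.extendScalars h') (RingHom.ext fun _ => Subtype.ext rfl)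

theorem four_le_of_aux {M : ℕ} [NeZero M] (h : AuxLevel M) : 4 ≤ M ∧ M ≠ 5 := by
  have := Nat.pos_of_ne_zero (NeZero.ne M)
  rcases h with h | h <;> (have := Nat.le_of_dvd this h; omega)

theorem finrank_fieldLL (hA : AuxLevel M) :
    Module.finrank LL⟮(⟨_, jq_mem_fieldLL M κ⟩ : fieldLL M κ)⟯ (fieldLL M κ) =
      Nat.card (SL(2, ℤ) ⧸ pmGamma1 M) := by
  classical
  haveI : Fintype (SL(2, ℤ) ⧸ pmGamma1 M) := Subgroup.fintypeQuotientOfFiniteIndex
  have hspec := (levelField_spec (phiK κ) (zetaS M κ) (coe_zetaS M κ) (isUnit_natCast_range M κ)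
    (phiK_surjective κ) (separates_gens (zetaS M κ) (coe_zetaS M κ) (isUnit_natCast_range M κ) (phiK κ)
      (four_le_of_aux hA).1
      (four_le_of_aux hA).2)).2
  have hle : LL⟮jqModC LL⟯ ≤ fieldLL M κ :=
    IntermediateField.adjoin_simple_le_iff.2 (jq_mem_fieldLL M κ)
  have h1 : LL⟮jqModC LL⟯.map (sc M) = baseField LL M := by
    rw [IntermediateField.adjoin_map, Set.image_singleton, scale_jq]
  have h2 := finrank_extendScalars_map (sc M) hle
    (baseField_le_levelField (phiK κ)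
      (gens (zetaS M κ) (coe_zetaS M κ) (isUnit_natCast_range M κ))) h1 (map_fieldLL M κ)
  exact (GoodModel.finrank_adjoin_coe (⟨_, jq_mem_fieldLL M κ⟩ : fieldLL M κ) hle).trans
    (h2.trans hspec)

theorem isModel_fieldLL (hA : AuxLevel M) :
    Tors.IsModel M (Tors.gammaPM M) κ (fieldLL M κ) := by
  have hj : coeffEmb LL jq = jqModC LL := coeffMap_jqModC _
  have hjm : coeffEmb LL jq ∈ fieldLL M κ := hj ▸ jq_mem_fieldLL M κ
  refine ⟨fieldLL_le_rat M κ, hjm, ?_⟩
  rw [show (⟨_, hjm⟩ : fieldLL M κ) = ⟨_, jq_mem_fieldLL M κ⟩ from Subtype.ext hj]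
  exact finrank_fieldLL M κ hA

/-! ### The Galois action -/

theorem coeffMap_sc (σ : GG) (x : LaurentSeries LL) :
    coeffMap (σ : LL →+* LL) (sc M x) = sc M (coeffMap (σ : LL →+* LL) x) := by
  rw [sc_eq, sc_eq, coeffMap_qExpand]

theorem exists_galExp (σ : GG) : ∃ k : ℕ, Nat.Coprime k M ∧
    Units.map ((σ : LL →+* LL) : LL →* LL) (xi M κ) = xi M κ ^ k := by
  have h := xi_prim M κ
  have h' := (IsPrimitiveRoot.coe_units_iff.2 h)
  have hs := h'.map_of_injective (f := (σ : LL →+* LL)) σ.injective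
  obtain ⟨k, -, hk⟩ := h'.eq_pow_of_pow_eq_one hs.pow_eq_one
  refine ⟨k, (h'.pow_iff_coprime (Nat.pos_of_ne_zero (NeZero.ne M)) k).1 (hk ▸ hs), Units.ext ?_⟩
  rw [Units.val_pow_eq_pow_val, hk]
  rfl

/-- The exponent of a Galois element on the root of unity. -/
def galExp (σ : GG) : ℕ := (exists_galExp M κ σ).choose

theorem galExp_coprime (σ : GG) : Nat.Coprime (galExp M κ σ) M :=
  (exists_galExp M κ σ).choose_spec.1

theorem map_xi (σ : GG) :
    Units.map ((σ : LL →+* LL) : LL →* LL) (xi M κ) = xi M κ ^ galExp M κ σ :=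
  (exists_galExp M κ σ).choose_spec.2

theorem coeffMap_gLL (σ : GG) (i : GenIdx M) : coeffMap (σ : LL →+* LL) (gLL M κ i) =
    gLL M κ (GenIdx.smul M (ZMod.unitOfCoprime _ (galExp_coprime M κ σ)) i) := by
  refine sc_injective M ?_
  rw [← coeffMap_sc, sc_gLL, sc_gLL,
    coeffMap_genSer _ (xi_prim M κ) (xi_prim M κ).pow_eq_one (galExp_coprime M κ σ) (map_xi M κ σ)]

theorem coeffMap_mem_fieldLL (σ : GG) {x : LaurentSeries LL} (hx : x ∈ fieldLL M κ) :
    coeffMap (σ : LL →+* LL) x ∈ fieldLL M κ := by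
  induction hx using IntermediateField.adjoin_induction with
  | mem x hx =>
    refine IntermediateField.subset_adjoin LL _ ?_
    rcases hx with rfl | rfl | ⟨i, rfl⟩
    · rw [coeffMap_jqModC]; exact Set.mem_insert _ _
    · rw [coeffMap_qExpand, coeffMap_jqModC]; exact Set.mem_insert_of_mem _ (Set.mem_insert _ _)
    · rw [coeffMap_gLL]
      exact Set.mem_insert_of_mem _ (Set.mem_insert_of_mem _ ⟨_, rfl⟩)
  | algebraMap c =>
    rw [coeffMap_algebraMap]
    exact (fieldLL M κ).algebraMap_mem _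
  | add x y _ _ hx hy => rw [map_add]; exact add_mem hx hy
  | inv x _ hx => rw [map_inv₀]; exact inv_mem hx
  | mul x y _ _ hx hy => rw [map_mul]; exact mul_mem hx hy

/-! ### The diamond automorphisms -/

local notation "ΓPM" => Tors.gammaPM M
local notation "G0" => CongruenceSubgroup.Gamma0 M

theorem expW_compW (γ : G0) (A : Tors.W M ΓPM) :
    Tors.psiCusp (((γ : SL(2, ℤ))⁻¹ : SL(2, ℤ)) : Tors.Cos ΓPM) A =
      Tors.expW M ΓPM (compW γ A) := by
  rw [Tors.psiCusp_apply, Tors.expW_apply]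
  congr 1
  refine Subtype.ext (funext fun τ => ?_)
  show Tors.trans _ A τ = _
  rw [Tors.trans_mk, inv_inv]
  rfl

/-- The expansions of the translates. -/
def diaC (γ : G0) : fieldLL M κ →+* LaurentSeries ℂ :=
  (Tors.extHom κ (Tors.psiCusp_injective (((γ : SL(2, ℤ))⁻¹ : SL(2, ℤ)) : Tors.Cos ΓPM))).comp
    (IntermediateField.inclusion (fieldLL_le_rat M κ)).toRingHom

theorem diaC_mul (γ : G0) {x : fieldLL M κ} {A B : Tors.W M ΓPM}
    (h : iota (N := M) κ (x : LaurentSeries LL) * Tors.expW M ΓPM B = Tors.expW M ΓPM A) :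
    diaC M κ γ x * Tors.expW M ΓPM (compW γ B) = Tors.expW M ΓPM (compW γ A) := by
  rw [← expW_compW, ← expW_compW]
  exact Tors.extHom_mul (Tors.psiCusp _) (Tors.psiCusp_injective _) _ h

theorem diaC_rep (γ : G0) {x : fieldLL M κ}
    {f g : invRing (S := κ.range) (M := M) (pmGamma1 M)} {y : LaurentSeries LL}
    (hx : sc M (x : LaurentSeries LL) = red (phiK κ) (f : modRing κ.range M))
    (hy : sc M y = red (phiK κ) (g : modRing κ.range M))
    (hfg : (g : modRing κ.range M) = transl (γ : SL(2, ℤ)) (f : modRing κ.range M)) :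
    diaC M κ γ x = iota (N := M) κ y := by
  have e : compW γ (toW f) = toW g := Subtype.ext (funext fun τ => by
    rw [compW_apply, coe_toW, coe_toW, hfg, transl_apply])
  have h := diaC_mul M κ γ (x := x) (A := toW f) (B := 1)
    (by rw [map_one, mul_one]; exact iota_rep M κ hx)
  rw [map_one, map_one, mul_one, e, ← iota_rep M κ hy] at h
  exact h

theorem diaC_jq (γ : G0) :
    diaC M κ γ ⟨_, jq_mem_fieldLL M κ⟩ = iota (N := M) κ (jqModC LL) :=
  diaC_rep M κ γ
    (f := ⟨jm (zetaS M κ) (coe_zetaS M κ), mem_invRing.mpr fun g _ => transl_jm _ _ g⟩)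
    (g := ⟨jm (zetaS M κ) (coe_zetaS M κ), mem_invRing.mpr fun g _ => transl_jm _ _ g⟩)
    ((scale_jq M).trans (red_jm (zetaS M κ) (coe_zetaS M κ) _).symm) ((scale_jq M).trans (red_jm (zetaS M κ) (coe_zetaS M κ) _).symm)
    (transl_jm (zetaS M κ) (coe_zetaS M κ) _).symm

theorem diaC_jqN (γ : G0) {h : qExpand LL M (jqModC LL) ∈ fieldLL M κ} :
    diaC M κ γ ⟨_, h⟩ = iota (N := M) κ (qExpand LL M (jqModC LL)) :=
  diaC_rep M κ γ
    (f := ⟨_, invRing_le (pmGamma1_le_Gamma0 M) (xm (zetaS M κ) (coe_zetaS M κ)).2⟩)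
    (g := ⟨_, invRing_le (pmGamma1_le_Gamma0 M) (xm (zetaS M κ) (coe_zetaS M κ)).2⟩)
    ((scale_jqN M M).trans (red_xm _ (zetaS M κ) (coe_zetaS M κ)).symm) ((scale_jqN M M).trans (red_xm _ (zetaS M κ) (coe_zetaS M κ)).symm)
    (mem_invRing.mp (xm (zetaS M κ) (coe_zetaS M κ)).2 _ γ.2).symm

/-- The lower right entry as a unit. -/
def lowUnit (γ : G0) : (ZMod M)ˣ :=
  Units.mkOfMulEqOne (((γ : SL(2, ℤ)) 1 1 : ℤ) : ZMod M) (((γ : SL(2, ℤ)) 0 0 : ℤ) : ZMod M) (by
    have h : (((γ : SL(2, ℤ)) 0 0 : ℤ) : ZMod M) * ((γ : SL(2, ℤ)) 1 1 : ℤ) -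
        ((γ : SL(2, ℤ)) 0 1 : ℤ) * ((γ : SL(2, ℤ)) 1 0 : ℤ) = 1 := by
      exact_mod_cast congrArg (fun x : ℤ => (x : ZMod M)) (det_eq (γ : SL(2, ℤ)))
    rwa [CongruenceSubgroup.Gamma0_mem.mp γ.2, mul_zero, sub_zero, mul_comm] at h)

theorem diaC_gLL (γ : G0) (i : GenIdx M) {h : gLL M κ i ∈ fieldLL M κ} :
    diaC M κ γ ⟨_, h⟩ = iota (N := M) κ (gLL M κ (GenIdx.smul M (lowUnit M γ) i)) :=
  diaC_rep M κ γ
    (f := gen (zetaS M κ) (coe_zetaS M κ) (isUnit_natCast_range M κ) i)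
    (g := gen (zetaS M κ) (coe_zetaS M κ) (isUnit_natCast_range M κ)
      (GenIdx.smul M (lowUnit M γ) i))
    (by rw [red_gen, map_zetaS, sc_gLL]) (by rw [red_gen, map_zetaS, sc_gLL])
    (transl_gen _ _ _ γ.2 (lowUnit M γ) rfl i).symm

theorem diaC_algebraMap (γ : G0) (c : LL) :
    diaC M κ γ (algebraMap LL (fieldLL M κ) c) = HahnSeries.C (κ c) := by
  have h := diaC_mul M κ γ (x := algebraMap LL (fieldLL M κ) c) (A := algebraMap ℂ _ (κ c)) (B := 1)
    (by rw [map_one, mul_one, AlgHom.commutes]; exact iota_algebraMap κ c)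
  rw [map_one, map_one, mul_one] at h
  rw [h, show compW γ (algebraMap ℂ _ (κ c)) = algebraMap ℂ _ (κ c) from rfl, AlgHom.commutes,
    algebraMap_laurentSeries_eq_single, HahnSeries.C_apply]

theorem exists_diaC (γ : G0) (x : fieldLL M κ) :
    ∃ y : fieldLL M κ, diaC M κ γ x = iota (N := M) κ (y : LaurentSeries LL) := by
  obtain ⟨x, hx⟩ := x
  induction hx using IntermediateField.adjoin_induction with
  | mem x hx =>
    rcases hx with rfl | rfl | ⟨i, rfl⟩
    · exact ⟨⟨_, jq_mem_fieldLL M κ⟩, diaC_jq M κ γ⟩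
    · exact ⟨⟨_, IntermediateField.subset_adjoin LL _
        (Set.mem_insert_of_mem _ (Set.mem_insert _ _))⟩, diaC_jqN M κ γ⟩
    · exact ⟨⟨_, IntermediateField.subset_adjoin LL _
        (Set.mem_insert_of_mem _ (Set.mem_insert_of_mem _ ⟨_, rfl⟩))⟩, diaC_gLL M κ γ i⟩
  | algebraMap c =>
    refine ⟨algebraMap LL _ c, ?_⟩
    show diaC M κ γ (algebraMap LL (fieldLL M κ) c) = iota (N := M) κ (algebraMap LL _ c)
    rw [diaC_algebraMap, iota_algebraMap, algebraMap_laurentSeries_eq_single, HahnSeries.C_apply]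
  | add a b ha hb iha ihb =>
    obtain ⟨u, hu⟩ := iha
    obtain ⟨v, hv⟩ := ihb
    refine ⟨u + v, ?_⟩
    show diaC M κ γ (⟨a, ha⟩ + ⟨b, hb⟩) = _
    rw [map_add, hu, hv, IntermediateField.coe_add, map_add]
  | inv a ha iha =>
    obtain ⟨u, hu⟩ := iha
    refine ⟨u⁻¹, ?_⟩
    show diaC M κ γ (⟨a, ha⟩ : fieldLL M κ)⁻¹ = _
    rw [map_inv₀, hu, IntermediateField.coe_inv, map_inv₀]
  | mul a b ha hb iha ihb =>
    obtain ⟨u, hu⟩ := iha
    obtain ⟨v, hv⟩ := ihb
    refine ⟨u * v, ?_⟩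
    show diaC M κ γ (⟨a, ha⟩ * ⟨b, hb⟩) = _
    rw [map_mul, hu, hv, IntermediateField.coe_mul, map_mul]

/-- The image of a function under a diamond. -/
def diaFun (γ : G0) (x : fieldLL M κ) : fieldLL M κ := (exists_diaC M κ γ x).choose

theorem iota_diaFun (γ : G0) (x : fieldLL M κ) :
    iota (N := M) κ (diaFun M κ γ x : LaurentSeries LL) = diaC M κ γ x :=
  (exists_diaC M κ γ x).choose_spec.symm

theorem diaFun_eq {γ : G0} {x y : fieldLL M κ}
    (h : diaC M κ γ x = iota (N := M) κ (y : LaurentSeries LL)) : diaFun M κ γ x = y :=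
  Subtype.ext (iota_injective κ ((iota_diaFun M κ γ x).trans h))

theorem diaFun_rep (γ : G0) {x : fieldLL M κ} {A B : Tors.W M ΓPM}
    (h : iota (N := M) κ (x : LaurentSeries LL) * Tors.expW M ΓPM B = Tors.expW M ΓPM A) :
    iota (N := M) κ (diaFun M κ γ x : LaurentSeries LL) * Tors.expW M ΓPM (compW γ B) =
      Tors.expW M ΓPM (compW γ A) := by
  rw [iota_diaFun]; exact diaC_mul M κ γ h

theorem diaFun_diaFun_inv (γ δ : G0) (hγδ : γ * δ = 1) (x : fieldLL M κ) :
    diaFun M κ δ (diaFun M κ γ x) = x := by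
  obtain ⟨A, B, hB, h⟩ := fieldLL_le_rat M κ x.2
  have h2 := diaFun_rep M κ δ (diaFun_rep M κ γ h)
  rw [compW_compW, compW_compW, hγδ, compW_one, compW_one, ← h] at h2
  exact Subtype.ext (iota_injective κ (mul_right_cancel₀ (Tors.expW_ne_zero hB) h2))

/-- The diamond automorphism. -/
def diaEquiv (γ : G0) : fieldLL M κ ≃ₐ[LL] fieldLL M κ where
  toFun := diaFun M κ γ
  invFun := diaFun M κ γ⁻¹
  left_inv := diaFun_diaFun_inv M κ γ γ⁻¹ (mul_inv_cancel γ)
  right_inv := diaFun_diaFun_inv M κ γ⁻¹ γ (inv_mul_cancel γ)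
  map_mul' a b := diaFun_eq M κ (by
    rw [IntermediateField.coe_mul, map_mul (iota κ), iota_diaFun, iota_diaFun, map_mul])
  map_add' a b := diaFun_eq M κ (by
    rw [IntermediateField.coe_add, map_add (iota κ), iota_diaFun, iota_diaFun, map_add])
  commutes' c := diaFun_eq M κ (by
    rw [diaC_algebraMap]
    show _ = iota (N := M) κ (algebraMap LL _ c)
    rw [iota_algebraMap, algebraMap_laurentSeries_eq_single, HahnSeries.C_apply])

theorem coe_diaEquiv_jq (γ : G0) {x : fieldLL M κ}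
    (hx : (x : LaurentSeries LL) = jqModC LL) :
    (diaEquiv M κ γ x : LaurentSeries LL) = jqModC LL := by
  obtain ⟨x, hx'⟩ := x
  subst hx
  exact congrArg Subtype.val (diaFun_eq M κ (y := ⟨_, jq_mem_fieldLL M κ⟩) (diaC_jq M κ γ))

theorem coe_diaEquiv_jqN (γ : G0) {x : fieldLL M κ}
    (hx : (x : LaurentSeries LL) = qExpand LL M (jqModC LL)) :
    (diaEquiv M κ γ x : LaurentSeries LL) = qExpand LL M (jqModC LL) := by
  obtain ⟨x, hx'⟩ := x
  subst hx
  exact congrArg Subtype.val (diaFun_eq M κ (y := ⟨_, hx'⟩) (diaC_jqN M κ γ))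

theorem coe_diaEquiv_gLL (γ : G0) {x : fieldLL M κ} {i : GenIdx M}
    (hx : (x : LaurentSeries LL) = gLL M κ i) :
    (diaEquiv M κ γ x : LaurentSeries LL) = gLL M κ (GenIdx.smul M (lowUnit M γ) i) := by
  obtain ⟨x, hx'⟩ := x
  subst hx
  exact congrArg Subtype.val (diaFun_eq M κ (y := ⟨_, IntermediateField.subset_adjoin LL _
    (Set.mem_insert_of_mem _ (Set.mem_insert_of_mem _ ⟨_, rfl⟩))⟩) (diaC_gLL M κ γ i))

theorem diaEquiv_galois (γ : G0) (σ : GG) (x : fieldLL M κ) :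
    (diaEquiv M κ γ ⟨_, coeffMap_mem_fieldLL M κ σ x.2⟩ : LaurentSeries LL) =
      coeffMap (σ : LL →+* LL) (diaEquiv M κ γ x : LaurentSeries LL) := by
  obtain ⟨x, hx⟩ := x
  induction hx using IntermediateField.adjoin_induction with
  | mem x hx =>
    rcases hx with rfl | rfl | ⟨i, rfl⟩
    · exact (coe_diaEquiv_jq M κ γ (coeffMap_jqModC _)).trans
        ((congrArg (coeffMap (σ : LL →+* LL)) (coe_diaEquiv_jq M κ γ rfl)).trans
          (coeffMap_jqModC _)).symm
    · have e : coeffMap (σ : LL →+* LL) (qExpand LL M (jqModC LL)) = qExpand LL M (jqModC LL) := by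
        rw [coeffMap_qExpand, coeffMap_jqModC]
      exact (coe_diaEquiv_jqN M κ γ e).trans
        ((congrArg (coeffMap (σ : LL →+* LL)) (coe_diaEquiv_jqN M κ γ rfl)).trans e).symm
    · refine (coe_diaEquiv_gLL M κ γ (coeffMap_gLL M κ σ i)).trans
        (((congrArg (coeffMap (σ : LL →+* LL)) (coe_diaEquiv_gLL M κ γ (i := i) rfl)).trans
          ((coeffMap_gLL M κ σ _).trans (congrArg (gLL M κ) ?_))).symm)
      simp [GenIdx.smul, mul_left_comm]
  | algebraMap c =>
    have e : (⟨coeffMap (σ : LL →+* LL) (algebraMap LL _ c),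
        coeffMap_mem_fieldLL M κ σ ((fieldLL M κ).algebraMap_mem c)⟩ : fieldLL M κ) =
          algebraMap LL (fieldLL M κ) (σ c) := Subtype.ext (coeffMap_algebraMap _ c)
    simp only [e]
    rw [AlgEquiv.commutes]
    exact (congrArg (fun z : fieldLL M κ => coeffMap (σ : LL →+* LL) (z : LaurentSeries LL))
      ((diaEquiv M κ γ).commutes c)).trans (coeffMap_algebraMap _ c) |>.symm
  | add a b ha hb iha ihb =>
    have e : (⟨_, coeffMap_mem_fieldLL M κ σ (add_mem ha hb)⟩ : fieldLL M κ) =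
        ⟨_, coeffMap_mem_fieldLL M κ σ ha⟩ + ⟨_, coeffMap_mem_fieldLL M κ σ hb⟩ :=
      Subtype.ext (map_add _ _ _)
    simp only [e]
    show _ = coeffMap (σ : LL →+* LL) (diaEquiv M κ γ (⟨a, ha⟩ + ⟨b, hb⟩) : LaurentSeries LL)
    rw [map_add, map_add, IntermediateField.coe_add, IntermediateField.coe_add, map_add, iha, ihb]
  | inv a ha iha =>
    have e : (⟨_, coeffMap_mem_fieldLL M κ σ (inv_mem ha)⟩ : fieldLL M κ) =
        (⟨_, coeffMap_mem_fieldLL M κ σ ha⟩ : fieldLL M κ)⁻¹ :=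
      Subtype.ext (map_inv₀ _ _)
    simp only [e]
    show _ = coeffMap (σ : LL →+* LL) (diaEquiv M κ γ (⟨a, ha⟩ : fieldLL M κ)⁻¹ : LaurentSeries LL)
    rw [map_inv₀, map_inv₀, IntermediateField.coe_inv, IntermediateField.coe_inv, map_inv₀, iha]
  | mul a b ha hb iha ihb =>
    have e : (⟨_, coeffMap_mem_fieldLL M κ σ (mul_mem ha hb)⟩ : fieldLL M κ) =
        ⟨_, coeffMap_mem_fieldLL M κ σ ha⟩ * ⟨_, coeffMap_mem_fieldLL M κ σ hb⟩ :=
      Subtype.ext (map_mul _ _ _)
    simp only [e]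
    show _ = coeffMap (σ : LL →+* LL) (diaEquiv M κ γ (⟨a, ha⟩ * ⟨b, hb⟩) : LaurentSeries LL)
    rw [map_mul, map_mul, IntermediateField.coe_mul, IntermediateField.coe_mul, map_mul, iha, ihb]

/-- The function field of `X₁(M)`. -/
def field1 (hA : AuxLevel M) : Field1 M κ where
  F := fieldLL M κ
  isFunctionField :=
    haveI := Tors.finiteIndex_pm (M := M)
    (isModel_fieldLL M κ hA).isFunctionField
  mem_iff x := by
    refine ⟨fun hx => ?_, fun ⟨a, b, hb, h⟩ => ?_⟩
    · obtain ⟨A, B, hB, h⟩ := fieldLL_le_rat M κ hx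
      exact ⟨Tors.toW1 A, Tors.toW1 B, Tors.toW1_ne_zero hB,
        by rw [Tors.expW1_toW1, Tors.expW1_toW1]; exact h⟩
    · exact (isModel_fieldLL M κ hA).mem_of_mem_ratField
        ⟨Tors.ofW1 a, Tors.ofW1 b, Tors.ofW1_ne_zero hb,
          by rw [Tors.expW_ofW1, Tors.expW_ofW1]; exact h⟩
  j_mem := jq_mem_fieldLL M κ
  finrank_j := finrank_fieldLL M κ hA
  stable σ x hx := coeffMap_mem_fieldLL M κ σ hx
  dia := diaEquiv M κ
  dia_represents γ x a b h := by
    obtain ⟨hb, hab⟩ := h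
    rw [← Tors.expW_ofW1, ← Tors.expW_ofW1] at hab
    refine ⟨Tors.toW1 (compW γ (Tors.ofW1 a)), Tors.toW1 (compW γ (Tors.ofW1 b)),
      fun _ => rfl, fun _ => rfl,
      Tors.toW1_ne_zero (compW_ne_zero γ (Tors.ofW1_ne_zero hb)), ?_⟩
    rw [Tors.expW1_toW1, Tors.expW1_toW1]
    exact diaFun_rep M κ γ hab
  dia_galois := diaEquiv_galois M κ

/-- Package C1a. -/
theorem targetField1 : TargetField1 := fun M _ κ hA => ⟨field1 M κ hA⟩

end FLTAgent.DeligneSerre
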