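import Fermat.Agent.DeligneSerre.Field.Gens
import Fermat.Agent.DeligneSerre.TorsionTarget
import Fermat.Agent.Mazur.PointFam

/-!
# Invariant functions with expansions over the image of an embedding
-/

set_option autoImplicit false
set_option linter.unusedSectionVars false
set_option linter.style.haveILetI false
set_option maxHeartbeats 800000
set_option synthInstance.maxHeartbeats 400000

noncomputable section

open UpperHalfPlane hiding I I_re I_im
open Filter Topology Complex Function FLTAgent.ModEq FLTAgent.GoodModel ModularCurve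
open scoped MatrixGroups IntermediateField

namespace FLTAgent.DeligneSerre

open FLTAgent.X0Fn (PerL expL)

local notation "LL" => AlgebraicClosure ℚ

section Functions

variable {S : Subring ℂ} {M : ℕ} [NeZero M] {H : Subgroup SL(2, ℤ)}

theorem coe_mem_PerL (f : modRing S M) : (f : ℍ → ℂ) ∈ PerL (M : ℝ) := by
  obtain ⟨h1, h2⟩ := mem_sPairs.mp (serM_spec f)
  refine Mazur.mem_PerL_of_hasExp h1 (fun τ => ?_) h2
  rw [Mazur.smul_vadd]
  exact modRing_invariant f
    (CongruenceSubgroup.ModularGroup_T_pow_mem_Gamma M M dvd_rfl) τ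

theorem coe_mem_W (f : invRing (S := S) (M := M) H) :
    ((f : modRing S M) : ℍ → ℂ) ∈ Tors.W M H :=
  ⟨(mem_sPairs.mp (serM_spec _)).1,
    fun γ hγ τ => congrFun (congrArg Subtype.val (mem_invRing.mp f.2 γ hγ)) τ,
    fun g => coe_mem_PerL (transl g (f : modRing S M))⟩

/-- An element of the invariant ring as a function of the group. -/
def toW : invRing (S := S) (M := M) H →+* Tors.W M H where
  toFun f := ⟨_, coe_mem_W f⟩
  map_one' := rfl
  map_mul' _ _ := rfl
  map_zero' := rfl
  map_add' _ _ := rfl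

@[simp] theorem coe_toW (f : invRing (S := S) (M := M) H) :
    (toW f : ℍ → ℂ) = ((f : modRing S M) : ℍ → ℂ) := rfl

theorem expW_toW (f : invRing (S := S) (M := M) H) :
    Tors.expW M H (toW f) = sIncl S (serM (f : modRing S M)) := by
  rw [Tors.expW_apply]
  exact (Mazur.hasExp_expL _).unique (mem_sPairs.mp (serM_spec _)).2

end Functions

/-! ### Translation by `Γ₀(M)` -/

section Translation

variable {M : ℕ} [NeZero M]

theorem comp_smul_mem_W1 (γ : CongruenceSubgroup.Gamma0 M) (f : W1 M) :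
    (fun τ => (f : ℍ → ℂ) ((γ : SL(2, ℤ)) • τ)) ∈ W1 M := by
  refine ⟨X0Fn.comp_smul_mdiff f.2.1 _, fun δ hδ τ => ?_, fun g => ?_⟩
  · have h := f.2.2.1 _ (conj_mem_Gamma1 M γ ⟨δ, hδ⟩) ((γ : SL(2, ℤ)) • τ)
    show (f : ℍ → ℂ) ((γ : SL(2, ℤ)) • δ • τ) = (f : ℍ → ℂ) ((γ : SL(2, ℤ)) • τ)
    rw [← h, ← mul_smul, ← mul_smul, mul_assoc, inv_mul_cancel, mul_one]
  · simp only [← mul_smul]
    exact f.2.2.2 _

/-- Composition with an element of `Γ₀(M)`. -/
def compW (γ : CongruenceSubgroup.Gamma0 M) :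
    Tors.W M (Tors.gammaPM M) →+* Tors.W M (Tors.gammaPM M) where
  toFun f := Tors.ofW1 ⟨_, comp_smul_mem_W1 γ (Tors.toW1 f)⟩
  map_one' := rfl
  map_mul' _ _ := rfl
  map_zero' := rfl
  map_add' _ _ := rfl

@[simp] theorem compW_apply (γ : CongruenceSubgroup.Gamma0 M) (f : Tors.W M (Tors.gammaPM M))
    (τ : ℍ) : (compW γ f : ℍ → ℂ) τ = (f : ℍ → ℂ) ((γ : SL(2, ℤ)) • τ) := rfl

theorem compW_compW (γ δ : CongruenceSubgroup.Gamma0 M) (f : Tors.W M (Tors.gammaPM M)) :
    compW γ (compW δ f) = compW (δ * γ) f :=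
  Subtype.ext (funext fun τ => by simp [mul_smul])

theorem compW_one (f : Tors.W M (Tors.gammaPM M)) : compW 1 f = f :=
  Subtype.ext (funext fun τ => by simp)

theorem compW_ne_zero (γ : CongruenceSubgroup.Gamma0 M) {f : Tors.W M (Tors.gammaPM M)}
    (hf : f ≠ 0) : compW γ f ≠ 0 := fun h => hf (by
  rw [← compW_one f, ← inv_mul_cancel γ⁻¹, inv_inv, ← compW_compW, h, map_zero])

end Translation

/-! ### The constants -/

section Constants

variable (M : ℕ) [NeZero M] (κ : LL →+* ℂ)

theorem exists_root : ∃ ξ : LLˣ, κ (ξ : LL) = zetaN M ∧ IsPrimitiveRoot ξ M := by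
  obtain ⟨z, hz⟩ := HasEnoughRootsOfUnity.exists_primitiveRoot LL M
  have hC : IsPrimitiveRoot (zetaN M : ℂ) M := Complex.isPrimitiveRoot_exp _ (NeZero.ne M)
  obtain ⟨i, -, hi⟩ := (hz.map_of_injective κ.injective).eq_pow_of_pow_eq_one hC.pow_eq_one
  refine ⟨Units.mk0 _ (pow_ne_zero i (hz.ne_zero (NeZero.ne M))), ?_, ?_⟩
  · rw [Units.val_mk0, map_pow, hi]
  · rw [← IsPrimitiveRoot.coe_units_iff, Units.val_mk0]
    exact IsPrimitiveRoot.of_map_of_injective (f := κ) (by rw [map_pow, hi]; exact hC) κ.injective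

/-- The root of unity sent to `exp (2πi / M)`. -/
def xi : LLˣ := (exists_root M κ).choose

theorem kappa_xi : κ (xi M κ : LL) = zetaN M := (exists_root M κ).choose_spec.1

theorem xi_prim : IsPrimitiveRoot (xi M κ) M := (exists_root M κ).choose_spec.2

/-- The root of unity in the image. -/
def zetaS : (κ.range)ˣ := Units.map (κ.rangeRestrict : LL →* κ.range) (xi M κ)

theorem coe_zetaS : ((zetaS M κ : κ.range) : ℂ) = zetaN M := kappa_xi M κ

/-- The inverse of the embedding on its image. -/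
def phiK : κ.range →+* LL :=
  (RingEquiv.ofBijective κ.rangeRestrict
    ⟨fun _ _ h => κ.injective (congrArg Subtype.val h), κ.rangeRestrict_surjective⟩).symm.toRingHom

theorem phiK_rangeRestrict (x : LL) : phiK κ (κ.rangeRestrict x) = x :=
  RingEquiv.symm_apply_apply (RingEquiv.ofBijective κ.rangeRestrict
    ⟨fun _ _ h => κ.injective (congrArg Subtype.val h), κ.rangeRestrict_surjective⟩) x

theorem phiK_surjective : Surjective (phiK κ) := fun x => ⟨_, phiK_rangeRestrict κ x⟩

theorem comp_phiK : κ.comp (phiK κ) = κ.range.subtype := RingHom.ext fun y => by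
  obtain ⟨x, rfl⟩ := κ.rangeRestrict_surjective y
  rw [RingHom.comp_apply, phiK_rangeRestrict]
  rfl

theorem map_zetaS : Units.map (phiK κ : κ.range →* LL) (zetaS M κ) = xi M κ :=
  Units.ext (phiK_rangeRestrict κ _)

theorem isUnit_natCast_range : IsUnit ((M : ℕ) : κ.range) := by
  rw [← map_natCast κ.rangeRestrict]
  exact ((Nat.cast_ne_zero (R := LL)).2 (NeZero.ne M)).isUnit.map _

variable {M}

/-- The expansion of an invariant function from its reduction. -/
theorem coeffMap_red {H : Subgroup SL(2, ℤ)} (f : invRing (S := κ.range) (M := M) H) :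
    coeffMap κ (red (phiK κ) (f : modRing κ.range M)) = Tors.expW M H (toW f) := by
  rw [expW_toW, red, RingHom.comp_apply, coeffMap_coeffMap, comp_phiK]

theorem iota_eq_coeffMap (x : LaurentSeries LL) :
    X0Fn.iota (N := M) κ x = coeffMap κ (substAlg (1 : LLˣ) M x) := by
  rw [substAlg_apply, substHom_one, coeffMap_qExpand]
  rfl

end Constants

end FLTAgent.DeligneSerre
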