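import Fermat.Agent.DeligneSerre.Field.Monodromy

/-!
# The field of a congruence group in every characteristic prime to the level

For a group `H ⊇ Γ(M)` and invariant functions separating its cosets after reduction, the field
generated by their reductions contains the reductions of all invariant functions, and its degree
over the field of `j` is the index of `H`.
-/

set_option autoImplicit false
set_option linter.unusedSectionVars false
set_option linter.style.haveILetI false
set_option maxHeartbeats 800000
set_option synthInstance.maxHeartbeats 100000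

noncomputable section

open UpperHalfPlane hiding I I_re I_im
open Filter Topology Complex Function FLTAgent.ModEq FLTAgent.GoodModel ModularCurve
open scoped MatrixGroups IntermediateField

namespace FLTAgent.DeligneSerre

variable {S : Subring ℂ} {M : ℕ} [NeZero M] {K : Type*} [Field K] (φ : S →+* K)
  {H : Subgroup SL(2, ℤ)}

/-- The reduced expansions of the translates. -/
def redTr (q : SL(2, ℤ) ⧸ H) : invRing (S := S) (M := M) H →+* LaurentSeries K :=
  (red φ).comp (tr q)

theorem redTr_one (f : invRing (S := S) (M := M) H) :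
    redTr φ ((1 : SL(2, ℤ)) : SL(2, ℤ) ⧸ H) f = red φ (f : modRing S M) := by
  rw [redTr, RingHom.comp_apply, tr_one]

/-- Distinct homomorphisms have a nonsingular matrix of values. -/
theorem exists_det_of_injOn {R L I : Type*} [CommRing R] [Field L] [Fintype I] [DecidableEq I]
    (χ : I → R →+* L) {G : Set R} (hinj : ∀ i i', (∀ f ∈ G, χ i f = χ i' f) → i = i') :
    ∃ θ : I → R, (∀ i, θ i ∈ Submonoid.closure G) ∧
      (Matrix.of fun q i => χ q (θ i)).det ≠ 0 := by
  classical
  let ψ : I → (Submonoid.closure G →* L) := fun q =>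
    ((χ q : R →+* L) : R →* L).comp (Submonoid.closure G).subtype
  have hψ : Injective ψ := fun q q' h => hinj q q' fun f hf =>
    DFunLike.congr_fun h ⟨f, Submonoid.subset_closure hf⟩
  have hind : LinearIndependent L fun q => (ψ q : Submonoid.closure G → L) :=
    (linearIndependent_monoidHom (Submonoid.closure G) L).comp ψ hψ
  let w : Submonoid.closure G → I → L := fun m q => ψ q m
  have hspan : Submodule.span L (Set.range w) = ⊤ := by
    by_contra hne
    obtain ⟨l, hl0, hl⟩ := Submodule.exists_dual_map_eq_bot_of_lt_top (lt_top_iff_ne_top.2 hne)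
      inferInstance
    refine hl0 (LinearMap.ext fun v => ?_)
    have hc : ∀ q, l (Pi.single q 1) = 0 := by
      refine Fintype.linearIndependent_iff.1 hind (fun q => l (Pi.single q 1)) (funext fun m => ?_)
      have h1 : l (w m) = 0 := by
        have : l (w m) ∈ (Submodule.span L (Set.range w)).map l :=
          Submodule.mem_map_of_mem (Submodule.subset_span ⟨m, rfl⟩)
        rwa [hl, Submodule.mem_bot] at this
      rw [Finset.sum_apply, Pi.zero_apply, ← h1]
      conv_rhs => rw [pi_eq_sum_univ' (w m), map_sum]
      refine Finset.sum_congr rfl fun q _ => ?_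
      rw [map_smul, Pi.smul_apply, smul_eq_mul, smul_eq_mul, mul_comm]
    rw [LinearMap.zero_apply, pi_eq_sum_univ' v, map_sum]
    exact Finset.sum_eq_zero fun q _ => by rw [map_smul, hc, smul_zero]
  obtain ⟨f, hf, -, hfi⟩ := Submodule.exists_fun_fin_finrank_span_eq L (Set.range w)
  have hcard : Module.finrank L (Submodule.span L (Set.range w)) = Fintype.card I := by
    rw [hspan, finrank_top, Module.finrank_fintype_fun_eq_card]
  let e : I ≃ Fin (Module.finrank L (Submodule.span L (Set.range w))) :=
    (Fintype.equivFin I).trans (finCongr hcard.symm)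
  choose m hm using fun i => hf (e i)
  refine ⟨fun i => (m i : R), fun i => (m i).2, ?_⟩
  set A : Matrix I I L := Matrix.of fun q i => χ q (m i : R)
  have hA : LinearIndependent L A.col := by
    have he : A.col = f ∘ e := funext fun i => by
      rw [Function.comp_apply, ← hm i]
      rfl
    rw [he]
    exact hfi.comp e e.injective
  exact ((Matrix.isUnit_iff_isUnit_det A).1
    (Matrix.linearIndependent_cols_iff_isUnit.1 hA)).ne_zero

/-- Residual separation of the cosets. -/
def Separates (G : Set (invRing (S := S) (M := M) H)) : Prop :=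
  ∀ g : SL(2, ℤ),
    (∀ f ∈ G, red φ (transl g (f : modRing S M)) = red φ (f : modRing S M)) → g ∈ H

/-- The field generated by the reductions. -/
def levelField (G : Set (invRing (S := S) (M := M) H)) :
    IntermediateField K (LaurentSeries K) :=
  IntermediateField.adjoin K
    ({jAt (1 : Kˣ) M} ∪ (fun f : invRing (S := S) (M := M) H => red φ (f : modRing S M)) '' G)

theorem baseField_le_levelField (G : Set (invRing (S := S) (M := M) H)) :
    baseField K M ≤ levelField φ G :=
  IntermediateField.adjoin_simple_le_iff.2
    (IntermediateField.subset_adjoin K _ (Set.mem_union_left _ rfl))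

variable (ζ : Sˣ) (hζ : ((ζ : S) : ℂ) = zetaN M) (hu : IsUnit ((M : ℕ) : S))

include ζ hζ hu in
theorem redTr_injOn {G : Set (invRing (S := S) (M := M) H)} (hsep : Separates φ G)
    {q q' : SL(2, ℤ) ⧸ H} (h : ∀ f ∈ G, redTr φ q f = redTr φ q' f) : q = q' := by
  induction q using QuotientGroup.induction_on with
  | H a =>
  induction q' using QuotientGroup.induction_on with
  | H b =>
  refine (QuotientGroup.eq.2 (hsep (b⁻¹ * a) fun f hf => ?_)).symm
  have h0 : red φ (transl a⁻¹ (f : modRing S M) - transl b⁻¹ (f : modRing S M)) = 0 := by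
    have := h f hf
    simp only [redTr, RingHom.comp_apply, tr_mk] at this
    rw [map_sub, this, sub_self]
  rw [← red_transl_eq_zero φ ζ hζ hu a, map_sub, map_sub, sub_eq_zero, transl_inv_inv a,
    transl_transl] at h0
  exact h0.symm
where
  transl_inv_inv (a : SL(2, ℤ)) {f : modRing S M} :
      transl a (transl a⁻¹ f) = f := by rw [transl_transl, inv_mul_cancel, transl_one]

variable [Fintype (SL(2, ℤ) ⧸ H)] [DecidableEq (SL(2, ℤ) ⧸ H)]

include ζ hζ hu in
theorem exists_det_ne_zero {G : Set (invRing (S := S) (M := M) H)} (hsep : Separates φ G) :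
    ∃ θ : SL(2, ℤ) ⧸ H → invRing (S := S) (M := M) H,
      (∀ i, θ i ∈ Submonoid.closure G) ∧
      (Matrix.of fun q i => redTr φ q (θ i)).det ≠ 0 :=
  exists_det_of_injOn (fun q => redTr φ q) fun _ _ h => redTr_injOn φ ζ hζ hu hsep h

theorem transl_det {A : Matrix (SL(2, ℤ) ⧸ H) (SL(2, ℤ) ⧸ H) (modRing S M)} (g : SL(2, ℤ))
    (hA : ∀ q i, transl g (A q i) = A (g⁻¹ • q) i) :
    transl g A.det = (Equiv.Perm.sign (MulAction.toPerm g⁻¹ :
      Equiv.Perm (SL(2, ℤ) ⧸ H)) : modRing S M) * A.det := by
  rw [RingHom.map_det, ← Matrix.det_permute]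
  congr 1
  exact Matrix.ext fun q i => hA q i

include ζ hζ hu in
/-- The reductions of invariant functions: the span of the reductions of a basis. -/
theorem exists_basis_red (hφ : Surjective φ) {G : Set (invRing (S := S) (M := M) H)}
    (hsep : Separates φ G) :
    ∃ θ : SL(2, ℤ) ⧸ H → invRing (S := S) (M := M) H,
      (∀ i, θ i ∈ Submonoid.closure G) ∧
      LinearIndependent (baseField K M) (fun i => red φ (θ i : modRing S M)) ∧
      ∀ f : invRing (S := S) (M := M) H, red φ (f : modRing S M) ∈
        Submodule.span (baseField K M) (Set.range fun i => red φ (θ i : modRing S M)) := by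
  classical
  obtain ⟨θ, hθ, hdet⟩ := exists_det_ne_zero φ ζ hζ hu hsep
  set Θ : Matrix (SL(2, ℤ) ⧸ H) (SL(2, ℤ) ⧸ H) (modRing S M) := Matrix.of fun q i => tr q (θ i)
    with hΘ
  have hΘd : red φ Θ.det ≠ 0 := by
    rw [RingHom.map_det]
    exact hdet
  refine ⟨θ, hθ, ?_, fun f => ?_⟩
  · rw [Fintype.linearIndependent_iff]
    intro c hc
    have hmem : ∀ i, ∃ r s : Polynomial K, Polynomial.aeval (jAt (1 : Kˣ) M) s ≠ 0 ∧
        (c i : LaurentSeries K) * Polynomial.aeval (jAt (1 : Kˣ) M) s =
          Polynomial.aeval (jAt (1 : Kˣ) M) r := by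
      intro i
      obtain ⟨r, s, hrs⟩ := (IntermediateField.mem_adjoin_simple_iff K _).1 (c i).2
      by_cases hs : Polynomial.aeval (jAt (1 : Kˣ) M) s = 0
      · exact ⟨0, 1, by simp, by rw [hrs, hs, div_zero, map_zero, zero_mul]⟩
      · exact ⟨r, s, hs, by rw [hrs, div_mul_cancel₀ _ hs]⟩
    choose r s hs hrs using hmem
    let P : SL(2, ℤ) ⧸ H → Polynomial K := fun i => r i * ∏ k ∈ Finset.univ.erase i, s k
    set Pd := ∏ k, Polynomial.aeval (jAt (1 : Kˣ) M) (s k) with hPd
    have hPe : ∀ i, Polynomial.aeval (jAt (1 : Kˣ) M) (P i) = (c i : LaurentSeries K) * Pd := by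
      intro i
      rw [hPd, ← Finset.mul_prod_erase _ _ (Finset.mem_univ i), ← mul_assoc, hrs, map_mul, map_prod]
    choose P' hP' using fun i => Polynomial.map_surjective φ hφ (P i)
    set y : SL(2, ℤ) ⧸ H → modRing S M := fun i => (P' i).eval₂ constM (jm ζ hζ) with hy
    have hyinv : ∀ g i, transl g (y i) = y i := fun g i => by
      rw [hy]
      simp only
      rw [Polynomial.hom_eval₂, transl_jm]
      congr 1
    have hyred : ∀ i, red φ (y i) = (c i : LaurentSeries K) * Pd := fun i => by
      rw [← hPe, hy]
      simp only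
      rw [Polynomial.hom_eval₂, red_jm, ← hP' i, Polynomial.aeval_def, Polynomial.eval₂_map]
      congr 1
      refine RingHom.ext fun z => ?_
      rw [RingHom.comp_apply, red_constM, RingHom.comp_apply, algebraMap_laurentSeries_eq_single]
      rfl
    have hx : red φ (∑ i, y i * (θ i : modRing S M)) = 0 := by
      have h1 := congrArg (· * Pd) hc
      simp only [zero_mul, Finset.sum_mul, IntermediateField.smul_def, smul_eq_mul] at h1
      rw [map_sum, ← h1]
      exact Finset.sum_congr rfl fun i _ => by rw [map_mul, hyred]; ring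
    have hmul : (Θ.map (red φ)).mulVec (fun i => red φ (y i)) = 0 := by
      funext q
      rw [Pi.zero_apply, ← (red_transl_eq_zero φ ζ hζ hu q.out⁻¹).2 hx]
      simp only [map_sum, map_mul, hyinv, Matrix.mulVec, dotProduct, Matrix.map_apply]
      exact Finset.sum_congr rfl fun i _ => mul_comm _ _
    have h0 := Matrix.eq_zero_of_mulVec_eq_zero (by rw [← RingHom.mapMatrix_apply, ← RingHom.map_det]; exact hΘd) hmul
    intro i
    have hi := congrFun h0 i
    rw [hyred, Pi.zero_apply, mul_eq_zero] at hi
    refine Subtype.ext (hi.resolve_right ?_)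
    exact Finset.prod_ne_zero_iff.2 fun k _ => hs k
  · set b : SL(2, ℤ) ⧸ H → modRing S M := fun q => tr q f with hb
    set D := Θ.det
    have htrD : ∀ g, transl g D =
        (Equiv.Perm.sign (MulAction.toPerm g⁻¹ : Equiv.Perm (SL(2, ℤ) ⧸ H)) : modRing S M) * D :=
      fun g => transl_det g fun q i => transl_tr g q (θ i)
    have hsq : ∀ (σ : Equiv.Perm (SL(2, ℤ) ⧸ H)) (x y : modRing S M),
        ((Equiv.Perm.sign σ : ℤˣ) : modRing S M) * x * (((Equiv.Perm.sign σ : ℤˣ) : modRing S M) * y) =
          x * y := fun σ x y => by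
      rw [mul_mul_mul_comm, ← Int.cast_mul, ← Units.val_mul, Int.units_mul_self, Units.val_one,
        Int.cast_one, one_mul]
    have hc : ∀ i, red φ (D * Θ.cramer b i) ∈ baseField K M := by
      intro i
      refine red_mem_base_of_fixed φ ζ hζ hu fun g => ?_
      rw [Matrix.cramer_apply, map_mul, htrD,
        transl_det g (A := Θ.updateCol i b) fun q k => ?_, hsq]
      simp only [Matrix.updateCol_apply]
      split_ifs
      · exact transl_tr g q f
      · exact transl_tr g q (θ k)
    have hd : red φ (D * D) ∈ baseField K M :=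
      red_mem_base_of_fixed φ ζ hζ hu fun g => by rw [map_mul, htrD, hsq]
    have hrel := congrFun (Matrix.mulVec_cramer Θ b) (QuotientGroup.mk (1 : SL(2, ℤ)))
    simp only [Matrix.mulVec, dotProduct, Pi.smul_apply, smul_eq_mul, hΘ, Matrix.of_apply, hb,
      tr_one] at hrel
    have hd0 : red φ (D * D) ≠ 0 := by rw [map_mul]; exact mul_ne_zero hΘd hΘd
    have key : red φ (f : modRing S M) =
        ∑ i, (red φ (D * Θ.cramer b i) / red φ (D * D)) * red φ (θ i : modRing S M) := by
      have h1 := congrArg (fun z => red φ (D * z)) hrel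
      simp only [Finset.mul_sum, map_sum, map_mul] at h1
      simp only [div_mul_eq_mul_div, ← Finset.sum_div]
      rw [eq_div_iff hd0, map_mul]
      refine Eq.trans ?_ (h1.symm.trans (Finset.sum_congr rfl fun i _ => ?_))
      · simp only [D, hΘ]
        ring
      · rw [map_mul]
        ring
    rw [key]
    refine Submodule.sum_mem _ fun i _ => ?_
    exact Submodule.smul_mem _ (⟨_, div_mem (hc i) hd⟩ : baseField K M)
      (Submodule.subset_span ⟨i, rfl⟩)

include ζ hζ hu in
/-- The degree of the field of a group, and the reductions of its invariant functions. -/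
theorem levelField_spec (hφ : Surjective φ) {G : Set (invRing (S := S) (M := M) H)}
    (hsep : Separates φ G) :
    (∀ f : invRing (S := S) (M := M) H, red φ (f : modRing S M) ∈ levelField φ G) ∧
    Module.finrank (baseField K M)
        (IntermediateField.extendScalars (baseField_le_levelField φ G)) =
      Nat.card (SL(2, ℤ) ⧸ H) := by
  classical
  obtain ⟨θ, hθ, hind, hspan⟩ := exists_basis_red φ ζ hζ hu hφ hsep
  set θb : SL(2, ℤ) ⧸ H → LaurentSeries K := fun i => red φ (θ i : modRing S M)
  set gK : Set (LaurentSeries K) := (fun f : invRing (S := S) (M := M) H => red φ (f : modRing S M)) '' G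
  set E := IntermediateField.adjoin (baseField K M) gK with hE
  set V := Submodule.span (baseField K M) (Set.range θb)
  have hclos : ∀ z ∈ Submonoid.closure gK, ∃ f : invRing (S := S) (M := M) H,
      red φ (f : modRing S M) = z := fun z hz => by
    induction hz using Submonoid.closure_induction with
    | mem z hz =>
      obtain ⟨f, -, hf⟩ := hz
      exact ⟨f, hf⟩
    | one => exact ⟨1, by rw [Subring.coe_one, map_one]⟩
    | mul x y _ _ hx hy =>
      obtain ⟨f, hf⟩ := hx
      obtain ⟨g, hg⟩ := hy
      exact ⟨f * g, by rw [Subring.coe_mul, map_mul, hf, hg]⟩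
  haveI : FiniteDimensional (baseField K M) V :=
    FiniteDimensional.span_of_finite _ (Set.finite_range _)
  have hA : Subalgebra.toSubmodule (Algebra.adjoin (baseField K M) gK) ≤ V := by
    rw [Algebra.adjoin_eq_span, Submodule.span_le]
    intro z hz
    obtain ⟨f, rfl⟩ := hclos z hz
    exact hspan f
  haveI : FiniteDimensional (baseField K M) (Algebra.adjoin (baseField K M) gK) :=
    Submodule.finiteDimensional_of_le hA
  have halg : ∀ z ∈ gK, IsAlgebraic (baseField K M) z := fun z hz => by
    have := Algebra.IsAlgebraic.isAlgebraic (R := baseField K M)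
      (⟨z, Algebra.subset_adjoin hz⟩ : Algebra.adjoin (baseField K M) gK)
    exact this.algebraMap
  have hEA : E.toSubalgebra = Algebra.adjoin (baseField K M) gK :=
    IntermediateField.adjoin_toSubalgebra_of_isAlgebraic halg
  have hθE' : ∀ f ∈ Submonoid.closure G, red φ (f : modRing S M) ∈ E := fun f hf => by
    induction hf using Submonoid.closure_induction with
    | mem f hf => exact IntermediateField.subset_adjoin _ _ ⟨f, hf, rfl⟩
    | one => rw [Subring.coe_one, map_one]; exact one_mem E
    | mul x y _ _ hx hy => rw [Subring.coe_mul, map_mul]; exact mul_mem hx hy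
  have hθE : ∀ i, θb i ∈ E := fun i => hθE' _ (hθ i)
  have hEV : Subalgebra.toSubmodule E.toSubalgebra = V := by
    refine le_antisymm (hEA ▸ hA) (Submodule.span_le.2 ?_)
    rintro _ ⟨i, rfl⟩
    exact hθE i
  have hres : E.restrictScalars K = levelField φ G := by
    rw [hE, levelField]
    exact IntermediateField.adjoin_adjoin_left K _ _
  have hmem : ∀ {z}, z ∈ V ↔ z ∈ levelField φ G := by
    intro z
    rw [← hres, IntermediateField.mem_restrictScalars, ← hEV]
    rfl
  refine ⟨fun f => hmem.1 (hspan f), ?_⟩
  have he : IntermediateField.extendScalars (baseField_le_levelField φ G) = E := by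
    refine IntermediateField.restrictScalars_injective K ?_
    rw [IntermediateField.extendScalars_restrictScalars, hres]
  rw [he, Nat.card_eq_fintype_card, ← finrank_span_eq_card hind]
  exact congrArg (fun W : Submodule (baseField K M) (LaurentSeries K) => Module.finrank _ W) hEV

end FLTAgent.DeligneSerre
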