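import Fermat.Agent.DeligneSerre.Field.JSep

/-!
# Generators of the field of `±Γ₁(M)`: ratios of differences of `℘` at the points `a / M`
-/

set_option autoImplicit false
set_option linter.unusedSectionVars false
set_option linter.style.haveILetI false
set_option linter.unusedTactic false

noncomputable section

open UpperHalfPlane hiding I I_re I_im
open Filter Topology Complex Function FLTAgent.ModEq FLTAgent.GoodModel ModularCurve
open scoped MatrixGroups IntermediateField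

namespace FLTAgent.DeligneSerre

variable (M : ℕ)

/-- The group `±Γ₁(M)`. -/
abbrev pmGamma1 : Subgroup SL(2, ℤ) :=
  CongruenceSubgroup.Gamma1 M ⊔ Subgroup.zpowers (-1 : SL(2, ℤ))

theorem Gamma_le_pmGamma1 : CongruenceSubgroup.Gamma M ≤ pmGamma1 M := by
  refine le_trans (fun g hg => ?_) le_sup_left
  obtain ⟨h1, -, h2, h3⟩ := CongruenceSubgroup.Gamma_mem.mp hg
  exact (CongruenceSubgroup.Gamma1_mem M g).mpr ⟨h1, h3, h2⟩

instance [NeZero M] : (pmGamma1 M).FiniteIndex := Subgroup.finiteIndex_of_le (Gamma_le_pmGamma1 M)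

theorem pmGamma1_le_Gamma0 : pmGamma1 M ≤ CongruenceSubgroup.Gamma0 M := by
  refine sup_le (CongruenceSubgroup.Gamma1_in_Gamma0 M) (Subgroup.zpowers_le.2 ?_)
  rw [CongruenceSubgroup.Gamma0_mem]
  simp

/-- An element of `Γ₀(M)` with lower right entry `±1` lies in `±Γ₁(M)`. -/
theorem mem_pmGamma1 {g : SL(2, ℤ)} (hg : g ∈ CongruenceSubgroup.Gamma0 M)
    (h : ((g 1 1 : ℤ) : ZMod M) = 1 ∨ ((g 1 1 : ℤ) : ZMod M) = -1) : g ∈ pmGamma1 M := by
  have hc : ((g 1 0 : ℤ) : ZMod M) = 0 := CongruenceSubgroup.Gamma0_mem.mp hg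
  have hdet : ((g 0 0 : ℤ) : ZMod M) * (g 1 1 : ℤ) - (g 0 1 : ℤ) * (g 1 0 : ℤ) = 1 := by
    exact_mod_cast congrArg (fun x : ℤ => (x : ZMod M)) (det_eq g)
  rw [hc, mul_zero, sub_zero] at hdet
  rcases h with h | h
  · refine Subgroup.mem_sup_left ((CongruenceSubgroup.Gamma1_mem M g).mpr ⟨?_, h, hc⟩)
    rwa [h, mul_one] at hdet
  · have h' : -g ∈ CongruenceSubgroup.Gamma1 M := by
      rw [h, mul_neg, mul_one] at hdet
      refine (CongruenceSubgroup.Gamma1_mem M _).mpr ⟨?_, ?_, ?_⟩ <;>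
        simp [hc, h, hdet]
    have := mul_mem (Subgroup.mem_sup_left (T := Subgroup.zpowers (-1 : SL(2, ℤ))) h')
      (Subgroup.mem_sup_right (Subgroup.mem_zpowers (-1 : SL(2, ℤ))))
    simpa using this

/-- The vector `(0, a)`. -/
def vecY (a : ZMod M) : Vec := (0, (a.val : ℤ))

/-- The vector `(a, 0)`. -/
def vecX (a : ZMod M) : Vec := ((a.val : ℤ), 0)

/-- Indices of the generators. -/
abbrev GenIdx : Type :=
  {v : (ZMod M × ZMod M) × (ZMod M × ZMod M) //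
    v.1.1 ≠ 0 ∧ v.1.2 ≠ 0 ∧ v.2.1 ≠ 0 ∧ v.2.2 ≠ 0 ∧ v.2.1 ≠ v.2.2 ∧ v.2.1 ≠ -v.2.2}

/-- The generator of an index. -/
def genFun [NeZero M] (i : GenIdx M) : ℍ → ℂ :=
  wq M (vecY M i.1.1.1) (vecY M i.1.1.2) (vecY M i.1.2.1) (vecY M i.1.2.2)

/-- Multiplication of an index by a unit. -/
def GenIdx.smul (u : (ZMod M)ˣ) (i : GenIdx M) : GenIdx M :=
  ⟨((u * i.1.1.1, u * i.1.1.2), (u * i.1.2.1, u * i.1.2.2)), by
    obtain ⟨h1, h2, h3, h4, h5, h6⟩ := i.2
    refine ⟨?_, ?_, ?_, ?_, ?_, ?_⟩ <;>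
      simp [Units.mul_right_eq_zero, ← mul_neg, h1, h2, h3, h4, h5, h6]⟩

variable {M} [NeZero M]

theorem veq_vecY {a : ZMod M} {v : Vec} (h0 : (v.1 : ZMod M) = 0) (h1 : (v.2 : ZMod M) = a) :
    VEq M v (vecY M a) := ⟨by simpa [vecY] using h0, by simpa [vecY] using h1⟩

theorem nz_vecY {a : ZMod M} (ha : a ≠ 0) : Nz M (vecY M a) := Or.inr (by simpa [vecY] using ha)

theorem nz_vecX {a : ZMod M} (ha : a ≠ 0) : Nz M (vecX M a) := Or.inl (by simpa [vecX] using ha)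

theorem pmEq_vecY {a b : ZMod M} : PMEq M (vecY M a) (vecY M b) ↔ a = b ∨ a = -b := by
  simp [PMEq, VEq, vecY]

theorem not_pmEq_vecY {a b : ZMod M} (h1 : a ≠ b) (h2 : a ≠ -b) :
    ¬ PMEq M (vecY M a) (vecY M b) := by rw [pmEq_vecY]; simp [h1, h2]

theorem compg_genFun {γ : SL(2, ℤ)} (hγ : γ ∈ CongruenceSubgroup.Gamma0 M) (u : (ZMod M)ˣ)
    (hu : ((γ 1 1 : ℤ) : ZMod M) = u) (i : GenIdx M) :
    compg γ (genFun M i) = genFun M (GenIdx.smul M u i) := by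
  have hc : ((γ 1 0 : ℤ) : ZMod M) = 0 := CongruenceSubgroup.Gamma0_mem.mp hγ
  have hv : ∀ a : ZMod M, VEq M (vmul (vecY M a) γ) (vecY M (u * a)) := fun a =>
    veq_vecY (by simp [vmul, vecY, hc]) (by simp [vmul, vecY, hu, mul_comm])
  rw [genFun, compg_wq, genFun]
  funext τ
  simp only [wq, GenIdx.smul]
  rw [wdiff_congr (Or.inl (hv _)) (Or.inl (hv _)), wdiff_congr (Or.inl (hv _)) (Or.inl (hv _))]

theorem genFun_congr {i j : GenIdx M} (h1 : i.1.1.1 = j.1.1.1 ∨ i.1.1.1 = -j.1.1.1)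
    (h2 : i.1.1.2 = j.1.1.2 ∨ i.1.1.2 = -j.1.1.2) (h3 : i.1.2.1 = j.1.2.1 ∨ i.1.2.1 = -j.1.2.1)
    (h4 : i.1.2.2 = j.1.2.2 ∨ i.1.2.2 = -j.1.2.2) : genFun M i = genFun M j := by
  funext τ
  simp only [genFun, wq]
  rw [wdiff_congr (pmEq_vecY.2 h1) (pmEq_vecY.2 h2), wdiff_congr (pmEq_vecY.2 h3) (pmEq_vecY.2 h4)]

theorem compg_genFun_pm {γ : SL(2, ℤ)} (hγ : γ ∈ CongruenceSubgroup.Gamma0 M)
    (h : ((γ 1 1 : ℤ) : ZMod M) = 1 ∨ ((γ 1 1 : ℤ) : ZMod M) = -1) (i : GenIdx M) :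
    compg γ (genFun M i) = genFun M i := by
  rcases h with h | h
  · rw [compg_genFun hγ 1 (by simpa using h)]
    exact genFun_congr (by simp [GenIdx.smul]) (by simp [GenIdx.smul]) (by simp [GenIdx.smul])
      (by simp [GenIdx.smul])
  · rw [compg_genFun hγ (-1) (by simpa using h)]
    exact genFun_congr (by simp [GenIdx.smul]) (by simp [GenIdx.smul]) (by simp [GenIdx.smul])
      (by simp [GenIdx.smul])

variable {S : Subring ℂ} (ζ : Sˣ) (hζ : ((ζ : S) : ℂ) = zetaN M) (hu : IsUnit ((M : ℕ) : S))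

include ζ hζ hu in
theorem genFun_mem (i : GenIdx M) : genFun M i ∈ modRing S M := by
  obtain ⟨h1, h2, h3, h4, h5, h6⟩ := i.2
  refine ⟨wq_mem ζ hζ hu (nz_vecY h1) (nz_vecY h2) (nz_vecY h3) (nz_vecY h4)
    (not_pmEq_vecY h5 h6), fun γ hγ τ => ?_⟩
  obtain ⟨-, -, hc, hd⟩ := CongruenceSubgroup.Gamma_mem.mp hγ
  exact congrFun (compg_genFun_pm (CongruenceSubgroup.Gamma0_mem.mpr hc) (Or.inl hd) i) τ

/-- The generator in the invariant ring. -/
def gen (i : GenIdx M) : invRing (S := S) (M := M) (pmGamma1 M) :=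
  ⟨⟨genFun M i, genFun_mem ζ hζ hu i⟩, mem_invRing.mpr fun g hg => by
    let St : Subgroup SL(2, ℤ) :=
      { carrier := {g | compg g (genFun M i) = genFun M i}
        one_mem' := compg_one _
        mul_mem' := fun {a b} ha hb => by
          show compg (a * b) _ = _
          rw [← compg_compg b a, ha, hb]
        inv_mem' := fun {a} ha => by
          refine compg_injective a ?_
          rw [compg_compg, inv_mul_cancel, compg_one, ha] }
    have hle : pmGamma1 M ≤ St := by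
      refine sup_le (fun a ha => ?_) (Subgroup.zpowers_le.2 ?_)
      · obtain ⟨-, hd, hc⟩ := (CongruenceSubgroup.Gamma1_mem M a).mp ha
        exact compg_genFun_pm (CongruenceSubgroup.Gamma0_mem.mpr hc) (Or.inl hd) i
      · exact compg_genFun_pm (CongruenceSubgroup.Gamma0_mem.mpr (by simp)) (Or.inr (by simp)) i
    exact Subtype.ext (hle hg)⟩

@[simp] theorem coe_gen (i : GenIdx M) :
    ((gen ζ hζ hu i : modRing S M) : ℍ → ℂ) = genFun M i := rfl

/-- The generating set. -/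
def gens : Set (invRing (S := S) (M := M) (pmGamma1 M)) :=
  insert ⟨(xm ζ hζ : modRing S M), invRing_le (pmGamma1_le_Gamma0 M) (xm ζ hζ).2⟩
    (Set.range (gen ζ hζ hu))

theorem transl_gen {γ : SL(2, ℤ)} (hγ : γ ∈ CongruenceSubgroup.Gamma0 M) (u : (ZMod M)ˣ)
    (hd : ((γ 1 1 : ℤ) : ZMod M) = u) (i : GenIdx M) :
    transl γ (gen ζ hζ hu i : modRing S M) = (gen ζ hζ hu (GenIdx.smul M u i) : modRing S M) :=
  Subtype.ext (compg_genFun hγ u hd i)

/-! ### Explicit expansions -/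

variable (M) in
/-- The expansion of the difference at `(0, a)`, `(0, b)`. -/
def pSer {R : Type*} [CommRing R] (ξ : Rˣ) (a b : ZMod M) : LaurentSeries R :=
  HahnSeries.ofPowerSeries ℤ R
    (wser M 0 (ξ ^ (a.val : ℤ)) - wser M 0 (ξ ^ (b.val : ℤ)))

variable (M) in
/-- The expansion of a generator. -/
def genSer {K : Type*} [Field K] (ξ : Kˣ) (i : GenIdx M) : LaurentSeries K :=
  pSer M ξ i.1.1.1 i.1.1.2 / pSer M ξ i.1.2.1 i.1.2.2

theorem coeffMap_pSer {R R' : Type*} [CommRing R] [CommRing R'] (f : R →+* R') {ξ : Rˣ}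
    (hξ : ∀ i : ℤ, ¬ (M : ℤ) ∣ i → IsUnit (1 - ((ξ ^ i : Rˣ) : R))) {a b : ZMod M} (ha : a ≠ 0)
    (hb : b ≠ 0) :
    coeffMap f (pSer M ξ a b) = pSer M (Units.map (f : R →* R') ξ) a b := by
  have hd : ∀ {c : ZMod M}, c ≠ 0 → IsUnit (1 - ((ξ ^ (c.val : ℤ) : Rˣ) : R)) := fun {c} hc =>
    hξ _ fun h => hc ((ZMod.natCast_zmod_val c).symm.trans
      ((ZMod.natCast_eq_zero_iff c.val M).mpr (Int.natCast_dvd_natCast.mp h)))
  rw [pSer, pSer, ← map_zpow, ← map_zpow, ← map_wser f 0 _ fun _ => hd ha,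
    ← map_wser f 0 _ fun _ => hd hb, ← map_sub (PowerSeries.map f)]
  ext k
  rw [coeffMap_coeff]
  rcases lt_or_ge k 0 with hk | hk
  · rw [ofPowerSeries_coeff_of_neg _ hk, ofPowerSeries_coeff_of_neg _ hk, map_zero]
  · lift k to ℕ using hk
    rw [HahnSeries.ofPowerSeries_apply_coeff, HahnSeries.ofPowerSeries_apply_coeff,
      PowerSeries.coeff_map]

include hζ hu in
theorem sPairs_pSer {a b : ZMod M} (ha : a ≠ 0) (hb : b ≠ 0) :
    (wdiff M (vecY M a) (vecY M b), pSer M ζ a b) ∈ sPairs S M := by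
  refine mem_sPairs.mpr ⟨mdiff_wdiff (nz_vecY ha) (nz_vecY hb), ?_⟩
  rw [sIncl, coeffMap_pSer S.subtype (isUnit_one_sub ζ hζ hu) ha hb,
    show Units.map (S.subtype : S →* ℂ) ζ = zetaN M from Units.ext hζ]
  exact hasExp_wv_sub (nz_vecY ha) (nz_vecY hb)

theorem serM_gen (i : GenIdx M) :
    serM (gen ζ hζ hu i : modRing S M) * pSer M ζ i.1.2.1 i.1.2.2 = pSer M ζ i.1.1.1 i.1.1.2 := by
  obtain ⟨h1, h2, h3, h4, h5, h6⟩ := i.2
  have he : ((gen ζ hζ hu i : modRing S M) : ℍ → ℂ) * wdiff M (vecY M i.1.2.1) (vecY M i.1.2.2) =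
      wdiff M (vecY M i.1.1.1) (vecY M i.1.1.2) := funext fun τ => by
    simp only [Pi.mul_apply, coe_gen, genFun, wq]
    exact div_mul_cancel₀ _ fun h =>
      not_pmEq_vecY h5 h6 ((wdiff_eq_zero_iff (nz_vecY h3) (nz_vecY h4) τ).mp h)
  have hm := (sPairs S M).mul_mem (serM_spec (gen ζ hζ hu i : modRing S M))
    (sPairs_pSer ζ hζ hu h3 h4)
  rw [Prod.mk_mul_mk, he] at hm
  exact sPairs_unique hm (sPairs_pSer ζ hζ hu h1 h2)

variable {K : Type*} [Field K] (φ : S →+* K)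

theorem red_gen (i : GenIdx M) :
    red φ (gen ζ hζ hu i : modRing S M) = genSer M (Units.map (φ : S →* K) ζ) i := by
  obtain ⟨h1, h2, h3, h4, h5, h6⟩ := i.2
  have hs := congrArg (coeffMap φ) (serM_gen ζ hζ hu i)
  rw [map_mul, coeffMap_pSer φ (isUnit_one_sub ζ hζ hu) h1 h2,
    coeffMap_pSer φ (isUnit_one_sub ζ hζ hu) h3 h4] at hs
  rw [genSer, eq_div_iff ?_]
  · exact hs
  obtain ⟨G, hG⟩ := exists_wdiff_unit ζ hζ hu (nz_vecY h3) (nz_vecY h4) (not_pmEq_vecY h5 h6)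
  rw [← coeffMap_pSer φ (isUnit_one_sub ζ hζ hu) h3 h4,
    ← sPairs_unique hG (sPairs_pSer ζ hζ hu h3 h4)]
  exact (G.isUnit.map (coeffMap φ)).ne_zero

theorem pow_val_mul {R : Type*} [CommRing R] {ξ : Rˣ} (hξ : ξ ^ M = 1) (k : ℕ) (a : ZMod M) :
    (ξ ^ k) ^ (a.val : ℤ) = ξ ^ ((((k : ℕ) : ZMod M) * a).val : ℤ) := by
  rw [zpow_natCast, zpow_natCast, ← pow_mul, pow_eq_pow_mod (k * a.val) hξ]
  congr 1
  rw [← ZMod.val_natCast, Nat.cast_mul, ZMod.natCast_zmod_val]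

theorem coeffMap_genSer {L : Type*} [Field L] (f : K →+* L) {ξ : Kˣ} {η : Lˣ}
    (hξ : IsPrimitiveRoot ξ M) (hη : η ^ M = 1) {k : ℕ} (hk : Nat.Coprime k M)
    (hf : Units.map (f : K →* L) ξ = η ^ k) (i : GenIdx M) :
    coeffMap f (genSer M ξ i) = genSer M η (GenIdx.smul M (ZMod.unitOfCoprime k hk) i) := by
  obtain ⟨h1, h2, h3, h4, h5, h6⟩ := i.2
  have hu' : ∀ j : ℤ, ¬ (M : ℤ) ∣ j → IsUnit (1 - ((ξ ^ j : Kˣ) : K)) := fun j hj =>
    (sub_ne_zero.2 fun h => hj ((hξ.zpow_eq_one_iff_dvd j).1 (Units.val_eq_one.1 h.symm))).isUnit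
  rw [genSer, map_div₀, coeffMap_pSer f hu' h1 h2, coeffMap_pSer f hu' h3 h4, hf]
  simp only [genSer, pSer, GenIdx.smul, ZMod.coe_unitOfCoprime, pow_val_mul hη]

/-! ### Separation -/

variable (M) in
/-- The absolute value of a class. -/
def absVal (a : ZMod M) : ℕ := a.valMinAbs.natAbs

theorem absVal_pos {a : ZMod M} (ha : a ≠ 0) : 0 < absVal M a := by
  rw [absVal, Int.natAbs_pos, Ne, ZMod.valMinAbs_eq_zero]; exact ha

theorem eq_or_neg_absVal (a : ZMod M) :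
    a = (absVal M a : ZMod M) ∨ a = -(absVal M a : ZMod M) := by
  rw [absVal, ZMod.natCast_natAbs_valMinAbs]
  split_ifs
  · exact Or.inl rfl
  · exact Or.inr (neg_neg a).symm

theorem pmEq_vecX (a : ZMod M) : PMEq M (vecX M a) ((absVal M a : ℤ), 0) := by
  rcases eq_or_neg_absVal a with h | h
  · exact Or.inl ⟨by simpa [vecX] using h, by simp [vecX]⟩
  · exact Or.inr ⟨by simpa [vecX] using h, by simp [vecX]⟩

include ζ hζ hu in
theorem exists_order_wdiff_vecX {a b : ZMod M} (ha : a ≠ 0) (hb : b ≠ 0) (h1 : a ≠ b)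
    (h2 : a ≠ -b) : ∃ P : LaurentSeries S,
      (wdiff M (vecX M a) (vecX M b), P) ∈ sPairs S M ∧ coeffMap φ P ≠ 0 ∧
      (coeffMap φ P).order = (min (absVal M a) (absVal M b) : ℕ) := by
  have hc : ∀ {c : ZMod M}, c ≠ 0 → Canon M (absVal M c) 0 := fun {c} hc => by
    refine ⟨?_, Or.inl (absVal_pos hc).ne'⟩
    have := ZMod.natAbs_valMinAbs_le c
    rw [absVal]
    omega
  have hne : ¬ PMEq M (((absVal M a : ℕ) : ℤ), (0 : ℤ)) (((absVal M b : ℕ) : ℤ), (0 : ℤ)) := by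
    intro h
    have hab : (absVal M a : ZMod M) = absVal M b ∨ (absVal M a : ZMod M) = -(absVal M b) := by
      rcases h with h | h
      · exact Or.inl (by simpa using h.1)
      · exact Or.inr (by simpa using h.1)
    rcases eq_or_neg_absVal a with ea | ea <;> rcases eq_or_neg_absVal b with eb | eb <;>
      rcases hab with h | h
    all_goals first
      | (refine h1 ?_; rw [ea, eb, h]; done)
      | (refine h1 ?_; rw [ea, eb, h, neg_neg]; done)
      | (refine h2 ?_; rw [ea, eb, h]; done)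
      | (refine h2 ?_; rw [ea, eb, h, neg_neg]; done)
  obtain ⟨P, hP, hlow, hlead⟩ := exists_wdiff_canon ζ hζ hu (hc ha) (hc hb) hne
  refine ⟨HahnSeries.ofPowerSeries ℤ S P, ?_, ?_⟩
  · rw [wdiff_congr (pmEq_vecX a) (pmEq_vecX b)]
    exact hP
  set m := min (absVal M a) (absVal M b)
  have hcoef : (coeffMap φ (HahnSeries.ofPowerSeries ℤ S P)).coeff (m : ℤ) ≠ 0 := by
    rw [coeffMap_coeff, HahnSeries.ofPowerSeries_apply_coeff]
    exact (hlead.map φ).ne_zero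
  have h0 : coeffMap φ (HahnSeries.ofPowerSeries ℤ S P) ≠ 0 := fun h => hcoef (by rw [h]; rfl)
  refine ⟨h0, le_antisymm (HahnSeries.order_le_of_coeff_ne_zero hcoef) ?_⟩
  refine (HahnSeries.le_order_iff_forall h0).2 fun k hk => ?_
  rw [coeffMap_coeff]
  rcases lt_or_ge k 0 with hk0 | hk0
  · rw [ofPowerSeries_coeff_of_neg _ hk0, map_zero]
  · lift k to ℕ using hk0
    rw [HahnSeries.ofPowerSeries_apply_coeff, hlow k (by omega), map_zero]

theorem red_transl_S_gen (i : GenIdx M) {P Q : LaurentSeries S}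
    (hP : (wdiff M (vecX M i.1.1.1) (vecX M i.1.1.2), P) ∈ sPairs S M)
    (hQ : (wdiff M (vecX M i.1.2.1) (vecX M i.1.2.2), Q) ∈ sPairs S M) :
    red φ (transl ModularGroup.S (gen ζ hζ hu i : modRing S M)) * coeffMap φ Q = coeffMap φ P := by
  obtain ⟨h1, h2, h3, h4, h5, h6⟩ := i.2
  rw [red, RingHom.comp_apply, ← map_mul]
  congr 1
  have hv : ∀ a : ZMod M, vmul (vecY M a) ModularGroup.S = vecX M a := fun a => by
    ext <;> simp [vmul, vecX, vecY, ModularGroup.S]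
  have he : ((transl ModularGroup.S (gen ζ hζ hu i : modRing S M) : modRing S M) : ℍ → ℂ) *
      wdiff M (vecX M i.1.2.1) (vecX M i.1.2.2) =
      wdiff M (vecX M i.1.1.1) (vecX M i.1.1.2) := funext fun τ => by
    simp only [Pi.mul_apply, coe_transl, coe_gen, genFun, compg_wq, hv, wq]
    refine div_mul_cancel₀ _ fun h => ?_
    rcases (wdiff_eq_zero_iff (nz_vecX h3) (nz_vecX h4) τ).mp h with h' | h'
    · exact h5 (by simpa [vecX] using h'.1)
    · exact h6 (by simpa [vecX] using h'.1)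
  have hm := (sPairs S M).mul_mem
    (serM_spec (transl ModularGroup.S (gen ζ hζ hu i : modRing S M))) hQ
  rw [Prod.mk_mul_mk, he] at hm
  exact sPairs_unique hm hP

theorem xm_mem_gens :
    (⟨(xm ζ hζ : modRing S M), invRing_le (pmGamma1_le_Gamma0 M) (xm ζ hζ).2⟩ :
      invRing (S := S) (M := M) (pmGamma1 M)) ∈ gens ζ hζ hu :=
  Set.mem_insert _ _

theorem gen_mem_gens (i : GenIdx M) : gen ζ hζ hu i ∈ gens ζ hζ hu :=
  Set.mem_insert_of_mem _ ⟨i, rfl⟩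

theorem separates_gens (h4 : 4 ≤ M) (h5 : M ≠ 5) : Separates φ (gens ζ hζ hu) := by
  intro g hg
  have hx0 := hg _ (xm_mem_gens ζ hζ hu)
  simp only at hx0
  have hg0 : g ∈ CongruenceSubgroup.Gamma0 M := mem_Gamma0_of_red_xm φ ζ hζ hu hx0
  have hdet : ((g 0 0 : ℤ) : ZMod M) * (g 1 1 : ℤ) - (g 0 1 : ℤ) * (g 1 0 : ℤ) = 1 := by
    exact_mod_cast congrArg (fun x : ℤ => (x : ZMod M)) (det_eq g)
  rw [CongruenceSubgroup.Gamma0_mem.mp hg0, mul_zero, sub_zero, mul_comm] at hdet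
  obtain ⟨u, hu1⟩ : ∃ u : (ZMod M)ˣ, ((g 1 1 : ℤ) : ZMod M) = u :=
    ⟨Units.mkOfMulEqOne _ _ hdet, rfl⟩
  refine mem_pmGamma1 M hg0 ?_
  rw [hu1]
  have hn : ∀ {m : ℕ}, 0 < m → m < M → (m : ZMod M) ≠ 0 := fun {m} hm hlt h =>
    absurd (Nat.le_of_dvd hm ((ZMod.natCast_eq_zero_iff m M).mp h)) (by omega)
  have h1 : (1 : ZMod M) ≠ 0 := by simpa using hn one_pos (by omega : 1 < M)
  have h2 : (2 : ZMod M) ≠ 0 := by simpa using hn two_pos (by omega : 2 < M)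
  have h12 : (1 : ZMod M) ≠ 2 := fun h => h1 (by linear_combination -h)
  have h12' : (1 : ZMod M) ≠ -2 := fun h =>
    hn (m := 3) (by omega) (by omega) (by push_cast; linear_combination h)
  have hv : ∀ {w : (ZMod M)ˣ} {x : ZMod M}, x ≠ 0 → (w : ZMod M) * x ≠ 0 := fun hx h =>
    hx ((Units.mul_right_eq_zero _).mp h)
  set i : GenIdx M := ⟨((((u⁻¹ : (ZMod M)ˣ) : ZMod M) * 1, ((u⁻¹ : (ZMod M)ˣ) : ZMod M) * 2), (1, 2)),
    hv h1, hv h2, h1, h2, h12, h12'⟩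
  have hrel := hg _ (gen_mem_gens ζ hζ hu i)
  rw [transl_gen ζ hζ hu hg0 u hu1] at hrel
  have hrel' : red φ (transl ModularGroup.S (gen ζ hζ hu (GenIdx.smul M u i) : modRing S M)) =
      red φ (transl ModularGroup.S (gen ζ hζ hu i : modRing S M)) := by
    rw [← sub_eq_zero, ← map_sub, ← map_sub, red_transl_eq_zero φ ζ hζ hu, map_sub, hrel, sub_self]
  have hne : ∀ w : (ZMod M)ˣ, (w : ZMod M) * 1 ≠ (w : ZMod M) * 2 ∧
      (w : ZMod M) * 1 ≠ -((w : ZMod M) * 2) := fun w =>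
    ⟨fun h => h12 (w.isUnit.mul_left_cancel h),
      fun h => h12' (w.isUnit.mul_left_cancel (h.trans (mul_neg _ _).symm))⟩
  obtain ⟨A, hA, hA0, hAo⟩ := exists_order_wdiff_vecX ζ hζ hu φ h1 h2 h12 h12'
  obtain ⟨B, hB, hB0, hBo⟩ := exists_order_wdiff_vecX ζ hζ hu φ (hv (w := u⁻¹) h1)
    (hv (w := u⁻¹) h2) (hne _).1 (hne _).2
  obtain ⟨C, hC, hC0, hCo⟩ := exists_order_wdiff_vecX ζ hζ hu φ (hv (w := u) h1) (hv (w := u) h2)
    (hne _).1 (hne _).2
  have e1 := red_transl_S_gen ζ hζ hu φ i hB hA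
  have e2 := red_transl_S_gen ζ hζ hu φ (GenIdx.smul M u i) (P := A) (Q := C)
    (by simpa [GenIdx.smul, i, ← mul_assoc] using hA) (by simpa [GenIdx.smul, i] using hC)
  rw [hrel'] at e2
  have e3 : coeffMap φ A * coeffMap φ A = coeffMap φ B * coeffMap φ C := by
    rw [← e1, ← e2]; ring
  have ho := congrArg HahnSeries.order e3
  rw [HahnSeries.order_mul hA0 hA0, HahnSeries.order_mul hB0 hC0, hAo, hBo, hCo] at ho
  have hA1 : min (absVal M (1 : ZMod M)) (absVal M (2 : ZMod M)) ≤ 1 := by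
    refine (min_le_left _ _).trans ?_
    rw [absVal]
    have := ZMod.valMinAbs_natCast_of_le_half (n := M) (a := 1) (by omega)
    rw [Nat.cast_one] at this
    rw [this]
    rfl
  have hp1 := absVal_pos (hv (w := u⁻¹) h1)
  have hp2 := absVal_pos (hv (w := u⁻¹) h2)
  have hp3 := absVal_pos (hv (w := u) h1)
  have hp4 := absVal_pos (hv (w := u) h2)
  have hpm : ∀ {x : ZMod M}, absVal M x = 1 → x = 1 ∨ x = -1 := fun {x} hx => by
    simpa [hx] using eq_or_neg_absVal x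
  have hU : absVal M ((u : ZMod M) * 1) = 1 ∨ absVal M ((u : ZMod M) * 2) = 1 := by omega
  have hV : absVal M (((u⁻¹ : (ZMod M)ˣ) : ZMod M) * 1) = 1 ∨
      absVal M (((u⁻¹ : (ZMod M)ˣ) : ZMod M) * 2) = 1 := by omega
  have hunit : (u : ZMod M) * ((u⁻¹ : (ZMod M)ˣ) : ZMod M) = 1 := u.mul_inv
  rcases hU with hU | hU
  · simpa using hpm hU
  rcases hV with hV | hV
  · rcases hpm hV with h | h
    · exact Or.inl (by rw [mul_one] at h; rw [h, mul_one] at hunit; exact hunit)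
    · exact Or.inr (by rw [mul_one] at h; rw [h] at hunit; linear_combination -hunit)
  exfalso
  have key : ∀ x y : ZMod M, (x = 1 ∨ x = -1) → (y = 1 ∨ y = -1) →
      (x * y = 1 ∨ x * y = -1) := fun x y hx hy => by
    rcases hx with rfl | rfl <;> rcases hy with rfl | rfl <;> simp
  rcases key _ _ (hpm hU) (hpm hV) with h | h
  · exact hn (m := 3) (by omega) (by omega) (by push_cast; linear_combination h - 4 * hunit)
  · have hd : M ∣ 5 := (ZMod.natCast_eq_zero_iff 5 M).mp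
      (by push_cast; linear_combination h - 4 * hunit)
    rcases (Nat.dvd_prime (by norm_num : Nat.Prime 5)).mp hd with h' | h' <;> omega

end FLTAgent.DeligneSerre
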