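import Fermat.Agent.DeligneSerre.Field.Degree

/-!
# The reductions of the translates of `j(Mτ)` separate the cosets of `Γ₀(M)`
-/

set_option autoImplicit false
set_option linter.unusedSectionVars false
set_option linter.style.haveILetI false

noncomputable section

open UpperHalfPlane hiding I I_re I_im
open Filter Topology Complex Function FLTAgent.ModEq FLTAgent.GoodModel ModularCurve
open scoped MatrixGroups IntermediateField

namespace FLTAgent.DeligneSerre

variable {S : Subring ℂ} {M : ℕ} [NeZero M] {K : Type*} [Field K] (φ : S →+* K)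
  (ζ : Sˣ) (hζ : ((ζ : S) : ℂ) = zetaN M) (hu : IsUnit ((M : ℕ) : S))

include hζ in
theorem exists_xm_series : ∃ X : invRing (S := S) (M := M) (CongruenceSubgroup.Gamma0 M),
    serM (X : modRing S M) = jAt (1 : Sˣ) (M * M) := by
  haveI : NeZero (M * M) := ⟨mul_ne_zero (NeZero.ne M) (NeZero.ne M)⟩
  obtain ⟨X, hX⟩ := exists_xm (K := ℂ) S.subtype ζ hζ
  refine ⟨X, sIncl_injective ?_⟩
  rw [coeffMap_jAt, map_one]
  exact hX

/-- The function `j(Mτ)`. -/
def xm : invRing (S := S) (M := M) (CongruenceSubgroup.Gamma0 M) :=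
  (exists_xm_series ζ hζ).choose

theorem serM_xm : serM (xm ζ hζ : modRing S M) = jAt (1 : Sˣ) (M * M) :=
  (exists_xm_series ζ hζ).choose_spec

theorem red_xm : red φ (xm ζ hζ : modRing S M) = xS K M M := by
  rw [red, RingHom.comp_apply, serM_xm, coeffMap_jAt, map_one]
  rfl

include hu in
theorem mem_Gamma0_of_red_xm {g : SL(2, ℤ)}
    (h : red φ (transl g (xm ζ hζ : modRing S M)) = red φ (xm ζ hζ : modRing S M)) :
    g ∈ CongruenceSubgroup.Gamma0 M := by
  classical
  haveI : Fintype (SL(2, ℤ) ⧸ CongruenceSubgroup.Gamma0 M) :=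
    Subgroup.fintypeQuotientOfFiniteIndex
  set X := xm ζ hζ
  set Q : Polynomial (modRing S M) :=
    ∏ q : SL(2, ℤ) ⧸ CongruenceSubgroup.Gamma0 M, (Polynomial.X - Polynomial.C (tr q X)) with hQ
  have hQinv : ∀ s, Q.map (transl s) = Q := by
    intro s
    conv_rhs => rw [hQ, ← image_smul_univ s⁻¹,
      Finset.prod_image fun a _ b _ h => MulAction.injective s⁻¹ h]
    rw [hQ, Polynomial.map_prod]
    exact Finset.prod_congr rfl fun q _ => by
      rw [Polynomial.map_sub, Polynomial.map_X, Polynomial.map_C, transl_tr]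
  have hbase : ∀ i, (Q.map (red φ)).coeff i ∈ baseField K M := fun i => by
    rw [Polynomial.coeff_map]
    exact red_mem_base_of_fixed φ ζ hζ hu fun s => by rw [← Polynomial.coeff_map, hQinv]
  obtain ⟨R, hR⟩ : ∃ R : Polynomial (baseField K M),
      R.map (algebraMap (baseField K M) (LaurentSeries K)) = Q.map (red φ) :=
    (Polynomial.mem_lifts _).1 ((Polynomial.lifts_iff_coeff_lifts _).2 fun i => ⟨⟨_, hbase i⟩, rfl⟩)
  have hQm : Q.Monic := Polynomial.monic_prod_of_monic _ _ fun _ _ => Polynomial.monic_X_sub_C _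
  have hRm : R.Monic := Polynomial.monic_of_injective
    (algebraMap (baseField K M) (LaurentSeries K)).injective (hR ▸ hQm.map _)
  have hroot : Polynomial.aeval (xS K M M) R = 0 := by
    rw [Polynomial.aeval_def, ← Polynomial.eval_map, hR, hQ, Polynomial.map_prod,
      Polynomial.eval_prod]
    refine Finset.prod_eq_zero (i := QuotientGroup.mk (1 : SL(2, ℤ))) (Finset.mem_univ _) ?_
    simp [tr_one, X, red_xm]
  set ζb := Units.map (φ : S →* K) ζ
  have hprim := isPrimitiveRoot_map φ ζ hζ hu
  have hG := good_of_dvd hprim M dvd_rfl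
  have heq : minpoly (baseField K M) (xS K M M) = R := by
    refine (Polynomial.eq_of_monic_of_dvd_of_natDegree_le (minpoly.monic hG.isIntegral) hRm
      (minpoly.dvd _ _ hroot) ?_).symm
    rw [hG.natDegree, ← Polynomial.natDegree_map_eq_of_injective
        (algebraMap (baseField K M) (LaurentSeries K)).injective R, hR, hQm.natDegree_map, hQ,
      Polynomial.natDegree_prod_of_monic _ _ fun _ _ => Polynomial.monic_X_sub_C _]
    simp [← Nat.card_eq_fintype_card, ES.card_cosets_eq_psi]
  have hroots : (Finset.univ : Finset (SL(2, ℤ) ⧸ CongruenceSubgroup.Gamma0 M)).val.map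
      (fun q => red φ (tr q X)) = (primTriples M).val.map (tSer ζb M) := by
    have h1 : Q.map (red φ) = (((Finset.univ : Finset (SL(2, ℤ) ⧸ CongruenceSubgroup.Gamma0 M)).val.map
        fun q => red φ (tr q X)).map fun a => Polynomial.X - Polynomial.C a).prod := by
      rw [Multiset.map_map, hQ, Polynomial.map_prod, Finset.prod_eq_multiset_prod]
      simp
    have h2 : Q.map (red φ) = (((primTriples M).val.map (tSer ζb M)).map
        fun a => Polynomial.X - Polynomial.C a).prod := by
      rw [← hR, ← heq, hG.min, Multiset.map_map, Finset.prod_eq_multiset_prod]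
      rfl
    have := congrArg Polynomial.roots (h1.symm.trans h2)
    rwa [Polynomial.roots_multiset_prod_X_sub_C, Polynomial.roots_multiset_prod_X_sub_C] at this
  have hnd : ((primTriples M).val.map (tSer ζb M)).Nodup := by
    refine Multiset.Nodup.map_on (fun t ht t' ht' h => ?_) (primTriples M).nodup
    obtain ⟨h1, h2, -⟩ := mem_primTriples.mp ht
    obtain ⟨h1', h2', -⟩ := mem_primTriples.mp ht'
    exact tSer_inj_level ζb M hprim dvd_rfl h1 h1' h2 h2' h
  have hinj := Multiset.inj_on_of_nodup_map (hroots ▸ hnd)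
    (QuotientGroup.mk g⁻¹) (Finset.mem_univ_val _)
    (QuotientGroup.mk (1 : SL(2, ℤ))) (Finset.mem_univ_val _)
    (by rw [tr_one, tr_mk, inv_inv]; exact h)
  rw [QuotientGroup.eq, inv_inv, mul_one] at hinj
  exact hinj

end FLTAgent.DeligneSerre
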