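import Fermat.Agent.DeligneSerre.Field.Ring
import Fermat.Agent.ES.CosetPairs
import Fermat.Agent.ModEq.Step

/-!
# Vanishing of the reduced expansion is invariant under `SL(2, ℤ)`

The stabiliser of the kernel of the reduced expansion contains `T`, and it is transitive on the
cosets of `Γ₀(M)` because the reduction of `j(Mτ)` has degree `ψ(M)` over the field of `j`.
-/

set_option autoImplicit false
set_option linter.unusedSectionVars false
set_option linter.style.haveILetI false

noncomputable section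

open UpperHalfPlane hiding I I_re I_im
open Filter Topology Complex Function FLTAgent.ModEq FLTAgent.GoodModel ModularCurve
open scoped MatrixGroups Manifold IntermediateField

namespace FLTAgent.DeligneSerre

variable {S : Subring ℂ} {M : ℕ}

/-! ### Translates along cosets -/

section Cosets

variable {H : Subgroup SL(2, ℤ)}

/-- The translate along a coset. -/
def tr (q : SL(2, ℤ) ⧸ H) : invRing (S := S) (M := M) H →+* modRing S M :=
  (transl q.out⁻¹).comp (invRing H).subtype

theorem tr_mk (g : SL(2, ℤ)) (f : invRing (S := S) (M := M) H) :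
    tr (g : SL(2, ℤ) ⧸ H) f = transl g⁻¹ (f : modRing S M) := by
  obtain ⟨h, hh⟩ := QuotientGroup.mk_out_eq_mul H g
  show transl _ (f : modRing S M) = _
  rw [hh, mul_inv_rev, ← transl_transl g⁻¹ (↑h)⁻¹, mem_invRing.mp f.2 _ (inv_mem h.2)]

theorem tr_one (f : invRing (S := S) (M := M) H) :
    tr ((1 : SL(2, ℤ)) : SL(2, ℤ) ⧸ H) f = (f : modRing S M) := by
  rw [tr_mk, inv_one, transl_one]

theorem transl_tr (g : SL(2, ℤ)) (q : SL(2, ℤ) ⧸ H) (f : invRing (S := S) (M := M) H) :
    transl g (tr q f) = tr (g⁻¹ • q) f := by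
  induction q using QuotientGroup.induction_on with
  | H x =>
    rw [show g⁻¹ • (x : SL(2, ℤ) ⧸ H) = ((g⁻¹ * x : SL(2, ℤ)) : SL(2, ℤ) ⧸ H) from rfl,
      tr_mk, tr_mk, transl_transl, mul_inv_rev, inv_inv]

theorem image_smul_univ [Fintype (SL(2, ℤ) ⧸ H)] [DecidableEq (SL(2, ℤ) ⧸ H)] (g : SL(2, ℤ)) :
    (Finset.univ : Finset (SL(2, ℤ) ⧸ H)).image (g • ·) = Finset.univ :=
  Finset.image_univ_of_surjective (MulAction.surjective g)

theorem transl_prod_tr {s : Finset (SL(2, ℤ) ⧸ H)} {g : SL(2, ℤ)}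
    [DecidableEq (SL(2, ℤ) ⧸ H)] (hs : s.image (g⁻¹ • ·) = s)
    (f : invRing (S := S) (M := M) H) :
    transl g (∏ q ∈ s, tr q f) = ∏ q ∈ s, tr q f := by
  conv_rhs => rw [← hs, Finset.prod_image fun a _ b _ h => MulAction.injective g⁻¹ h]
  rw [map_prod]
  exact Finset.prod_congr rfl fun q _ => transl_tr g q f

theorem transl_sum_tr {s : Finset (SL(2, ℤ) ⧸ H)} {g : SL(2, ℤ)}
    [DecidableEq (SL(2, ℤ) ⧸ H)] (hs : s.image (g⁻¹ • ·) = s)
    (f : invRing (S := S) (M := M) H) :
    transl g (∑ q ∈ s, tr q f) = ∑ q ∈ s, tr q f := by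
  conv_rhs => rw [← hs, Finset.sum_image fun a _ b _ h => MulAction.injective g⁻¹ h]
  rw [map_sum]
  exact Finset.sum_congr rfl fun q _ => transl_tr g q f

end Cosets

/-! ### The stabiliser -/

variable [NeZero M] {K : Type*} [Field K] (φ : S →+* K)

/-- The translations preserving vanishing of the reduced expansion. -/
def redStab : Subgroup SL(2, ℤ) where
  carrier := {g | ∀ f : modRing S M, red φ (transl g f) = 0 ↔ red φ f = 0}
  one_mem' := fun f => by rw [transl_one]
  mul_mem' {g h} hg hh := fun f => by rw [← transl_transl h g, hh, hg]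
  inv_mem' {g} hg := fun f => by
    conv_rhs => rw [← transl_one f, ← inv_mul_cancel g, ← transl_transl g g⁻¹, hg]

theorem Gamma_le_redStab : CongruenceSubgroup.Gamma M ≤ redStab (S := S) (M := M) φ :=
  fun g hg f => by rw [transl_of_mem_Gamma hg]

theorem exists_separating {g : SL(2, ℤ)} (hg : g ∉ redStab (S := S) (M := M) φ) :
    ∃ e : modRing S M, red φ e ≠ 0 ∧ red φ (transl g e) = 0 := by
  by_contra hne
  push Not at hne
  have hle : ∀ e : modRing S M, red φ (transl g e) = 0 → red φ e = 0 := fun e he => by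
    by_contra h0
    exact hne e h0 he
  have hpow : ∀ (k : ℕ) (e : modRing S M),
      red φ (transl (g ^ (k + 1)) e) = 0 → red φ (transl g e) = 0 := by
    intro k
    induction k with
    | zero => intro e he; rwa [zero_add, pow_one] at he
    | succ k ih =>
      intro e he
      rw [pow_succ, ← transl_transl g] at he
      exact ih e (hle _ he)
  haveI := CongruenceSubgroup.Gamma_normal M
  have hi : g ^ (CongruenceSubgroup.Gamma M).index ∈ CongruenceSubgroup.Gamma M :=
    Subgroup.pow_index_mem _ g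
  obtain ⟨k, hk⟩ := Nat.exists_eq_succ_of_ne_zero
    (Subgroup.FiniteIndex.index_ne_zero (H := CongruenceSubgroup.Gamma M))
  refine hg fun f => ⟨hle f, fun h0 => hpow k f ?_⟩
  rw [show k + 1 = (CongruenceSubgroup.Gamma M).index from hk.symm, transl_of_mem_Gamma hi, h0]

/-- A function, fixed by the stabiliser, nonvanishing exactly on the component at `∞`. -/
theorem exists_idem : ∃ e : invRing (S := S) (M := M) (redStab (S := S) (M := M) φ), red φ (e : modRing S M) ≠ 0 ∧
    ∀ g ∉ redStab (S := S) (M := M) φ, red φ (transl g (e : modRing S M)) = 0 := by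
  classical
  set St := redStab (S := S) (M := M) φ
  haveI : Fintype (SL(2, ℤ) ⧸ CongruenceSubgroup.Gamma M) :=
    Subgroup.fintypeQuotientOfFiniteIndex
  let t : Finset (SL(2, ℤ) ⧸ CongruenceSubgroup.Gamma M) :=
    Finset.univ.filter fun q => q.out⁻¹ ∈ St
  let t' : Finset (SL(2, ℤ) ⧸ CongruenceSubgroup.Gamma M) :=
    Finset.univ.filter fun q => q.out⁻¹ ∉ St
  have hex : ∀ q ∈ t', ∃ e : modRing S M, red φ e ≠ 0 ∧ red φ (transl q.out⁻¹ e) = 0 :=
    fun q hq => exists_separating φ (Finset.mem_filter.1 hq).2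
  choose! e he0 he using hex
  set e₁ : invRing (S := S) (M := M) (CongruenceSubgroup.Gamma M) :=
    ⟨∏ q ∈ t', e q, mem_invRing.mpr fun h hh => transl_of_mem_Gamma hh _⟩ with he₁
  have hmem : ∀ (x : SL(2, ℤ)),
      ((x : SL(2, ℤ) ⧸ CongruenceSubgroup.Gamma M).out⁻¹ ∈ St ↔ x⁻¹ ∈ St) := by
    intro x
    obtain ⟨h, hh⟩ := QuotientGroup.mk_out_eq_mul (CongruenceSubgroup.Gamma M) x
    rw [hh, mul_inv_rev, St.mul_mem_cancel_left (Gamma_le_redStab φ (inv_mem h.2))]
  have hst : ∀ s ∈ St, t.image (s⁻¹ • ·) = t := by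
    intro s hs
    refine Finset.eq_of_subset_of_card_le (fun q hq => ?_)
      (Finset.card_image_of_injective _ (MulAction.injective s⁻¹)).ge
    obtain ⟨q', hq', rfl⟩ := Finset.mem_image.1 hq
    induction q' using QuotientGroup.induction_on with
    | H x =>
      simp only [t, Finset.mem_filter, Finset.mem_univ, true_and, MulAction.Quotient.smul_coe,
        smul_eq_mul, hmem, mul_inv_rev, inv_inv] at hq' ⊢
      exact mul_mem hq' hs
  refine ⟨⟨∏ q ∈ t, tr q e₁, mem_invRing.mpr fun s hs => transl_prod_tr (hst s hs) e₁⟩, ?_, ?_⟩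
  · show red φ (∏ q ∈ t, tr q e₁) ≠ 0
    rw [map_prod]
    refine Finset.prod_ne_zero_iff.2 fun q hq => ?_
    show red φ (transl q.out⁻¹ (e₁ : modRing S M)) ≠ 0
    rw [Ne, (Finset.mem_filter.1 hq).2 (e₁ : modRing S M), he₁]
    show ¬ red φ (∏ q ∈ t', e q) = 0
    rw [map_prod]
    exact Finset.prod_ne_zero_iff.2 fun q' hq' => he0 q' hq'
  · intro g hg
    show red φ (transl g (∏ q ∈ t, tr q e₁)) = 0
    rw [map_prod, map_prod]
    set q₁ : SL(2, ℤ) ⧸ CongruenceSubgroup.Gamma M :=
      QuotientGroup.mk (1 : SL(2, ℤ))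
    refine Finset.prod_eq_zero (i := q₁) ?_ ?_
    · simp only [t, q₁, Finset.mem_filter, Finset.mem_univ, true_and, hmem, inv_one]
      exact one_mem St
    · have hq : (((g⁻¹ : SL(2, ℤ)) : SL(2, ℤ) ⧸ CongruenceSubgroup.Gamma M)) ∈ t' := by
        simp only [t', Finset.mem_filter, Finset.mem_univ, true_and, hmem, inv_inv]
        exact hg
      rw [tr_one, he₁]
      show red φ (transl g (∏ q ∈ t', e q)) = 0
      rw [map_prod, map_prod]
      refine Finset.prod_eq_zero hq ?_
      have h := he _ hq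
      obtain ⟨h', hh⟩ := QuotientGroup.mk_out_eq_mul (CongruenceSubgroup.Gamma M) g⁻¹
      rw [hh, mul_inv_rev, inv_inv, ← transl_transl g] at h
      rwa [transl_of_mem_Gamma (inv_mem h'.2)] at h

variable (ζ : Sˣ) (hζ : ((ζ : S) : ℂ) = zetaN M) (hu : IsUnit ((M : ℕ) : S))

include ζ hζ in
/-- Elements fixed by the stabiliser reduce into the field of `j`. -/
theorem red_mem_base (x : invRing (S := S) (M := M) (redStab (S := S) (M := M) φ)) :
    red φ (x : modRing S M) ∈ baseField K M := by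
  classical
  obtain ⟨e, he0, he⟩ := exists_idem (S := S) (M := M) φ
  haveI : (redStab (S := S) (M := M) φ).FiniteIndex :=
    Subgroup.finiteIndex_of_le (Gamma_le_redStab (S := S) (M := M) φ)
  haveI : Fintype (SL(2, ℤ) ⧸ redStab (S := S) (M := M) φ) :=
    Subgroup.fintypeQuotientOfFiniteIndex
  have hval : ∀ y : invRing (S := S) (M := M) (redStab (S := S) (M := M) φ),
      red φ (∑ q, tr q (y * e)) = red φ (y : modRing S M) * red φ (e : modRing S M) := by
    intro y
    rw [map_sum, Finset.sum_eq_single ((1 : SL(2, ℤ)) : SL(2, ℤ) ⧸ redStab (S := S) (M := M) φ)]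
    · rw [tr_one, Subring.coe_mul, map_mul]
    · intro q _ hq
      induction q using QuotientGroup.induction_on with
      | H g =>
        rw [tr_mk, Subring.coe_mul, map_mul, map_mul, he _ (fun hg => hq ?_), mul_zero]
        exact QuotientGroup.eq.2 (by simpa using hg)
    · simp
  have hbase : ∀ y : invRing (S := S) (M := M) (redStab (S := S) (M := M) φ),
      red φ (∑ q, tr q (y * e)) ∈ baseField K M := by
    intro y
    obtain ⟨P, hP⟩ := exists_poly_of_fixed ζ hζ fun g => transl_sum_tr (image_smul_univ g⁻¹) (y * e)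
    rw [← hP, Polynomial.hom_eval₂, red_jm]
    have hc : (red φ).comp (constM (M := M)) = (algebraMap K (LaurentSeries K)).comp φ := by
      refine RingHom.ext fun c => ?_
      rw [RingHom.comp_apply, red_constM, RingHom.comp_apply, algebraMap_laurentSeries_eq_single]
      rfl
    rw [hc, ← Polynomial.eval₂_map, ← Polynomial.aeval_def]
    exact IntermediateField.algebra_adjoin_le_adjoin K _
      (Polynomial.aeval_mem_adjoin_singleton K _)
  have h1 := hbase x
  have h2 := hbase 1
  rw [hval] at h1 h2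
  rw [Subring.coe_one, map_one, one_mul] at h2
  have h3 := div_mem h1 h2
  rwa [mul_div_assoc, div_self he0, mul_one] at h3

include ζ hζ in
/-- The translation by `T` on reduced expansions. -/
theorem red_transl_T (f : modRing S M) : red φ (transl ModularGroup.T f) =
    twist (Units.map (φ : S →* K) ζ) (red φ f) := by
  have h := (mem_sPairs.mp (serM_spec f)).2.comp_affine (n := M) 1 (zetaN M)
    (fun τ => ModularGroup.T • τ) (fun τ => ?_) ?_
  · have hu : Units.map (S.subtype : S →* ℂ) ζ = zetaN M := Units.ext hζ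
    have hs : serM (transl ModularGroup.T f) = twist ζ (serM f) := by
      refine sIncl_injective ?_
      refine (mem_sPairs.mp (serM_spec (transl ModularGroup.T f))).2.unique ?_
      rw [substHom_apply, qExpand_one_apply] at h
      rw [coeffMap_twist, show Units.map (S.subtype : S →+* ℂ).toMonoidHom ζ = zetaN M from hu]
      exact h
    rw [red, RingHom.comp_apply, RingHom.comp_apply, hs, coeffMap_twist]
    rfl
  · rw [pow_one, qp, qp, Periodic.qParam, Periodic.qParam, UpperHalfPlane.modular_T_smul,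
      UpperHalfPlane.coe_vadd, zetaN, Units.val_mk0, ← Complex.exp_add]
    congr 1
    push_cast
    field_simp
  · simpa [zpow_one] using tendsto_T_zpow 1

include ζ hζ in
theorem T_mem_redStab : ModularGroup.T ∈ redStab (S := S) (M := M) φ := fun f => by
  rw [red_transl_T φ ζ hζ]
  exact map_eq_zero _

include hu hζ in
theorem isPrimitiveRoot_map : IsPrimitiveRoot (Units.map (φ : S →* K) ζ) M := by
  refine ⟨by rw [← map_pow, zeta_pow ζ hζ, map_one], fun l hl => ?_⟩
  by_contra hd
  have h := (isUnit_one_sub ζ hζ hu (l : ℤ) (mt Int.natCast_dvd_natCast.mp hd)).map φ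
  rw [map_sub, map_one, zpow_natCast] at h
  refine h.ne_zero ?_
  rw [sub_eq_zero, ← MonoidHom.coe_coe, ← Units.coe_map, map_pow, hl, Units.val_one]

include hζ in
theorem exists_xm : ∃ X : invRing (S := S) (M := M) (CongruenceSubgroup.Gamma0 M),
    red φ (X : modRing S M) = xS K M M := by
  haveI : NeZero (M * M) := ⟨mul_ne_zero (NeZero.ne M) (NeZero.ne M)⟩
  have hinv : ∀ {g : SL(2, ℤ)}, g ∈ CongruenceSubgroup.Gamma0 M → ∀ τ : ℍ,
      jd 1 M (g • τ) = jd 1 M τ := fun {g} hg τ => by
    refine jd_invariant (by simp [CongruenceSubgroup.Gamma_one_top]) ?_ τ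
    rw [Nat.cast_one, one_mul]
    exact (ZMod.intCast_zmod_eq_zero_iff_dvd _ _).mp (CongruenceSubgroup.Gamma0_mem.mp hg)
  have hmem : jd 1 M ∈ modRing S M := by
    refine ⟨mem_trRing.mpr fun σ => ?_, fun γ hγ τ => hinv ?_ τ⟩
    · obtain ⟨A, D, B, δ, hA, hD, hAD, h⟩ := exists_affPt_smul M 1 σ
      rw [mul_one] at hAD
      have : NeZero A := hA
      have : NeZero D := hD
      have hk : D * A = M := by rw [mul_comm, hAD]
      refine ⟨jAt (ζ ^ ((A : ℤ) * B)) (A * A), ?_⟩
      convert sPairs_jFun_affPt ζ hζ A B D A hk using 2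
      funext τ
      show jd 1 M (σ • τ) = _
      rw [jd, h, jFun_smul]
    · exact CongruenceSubgroup.Gamma0_mem.mpr (CongruenceSubgroup.Gamma_mem.mp hγ).2.2.1
  refine ⟨⟨⟨jd 1 M, hmem⟩, mem_invRing.mpr fun g hg =>
    Subtype.ext (funext fun τ => hinv hg τ)⟩, ?_⟩
  have h := sPairs_jd (M0 := 1) ζ hζ (one_mul M) M
  rw [red_eq (f := ⟨jd 1 M, hmem⟩) φ h, coeffMap_jAt, map_one]
  rfl

include hζ hu in
theorem exists_mul_redStab (g : SL(2, ℤ)) :
    ∃ h ∈ CongruenceSubgroup.Gamma0 M, h⁻¹ * g ∈ redStab (S := S) (M := M) φ := by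
  classical
  obtain ⟨X, hX⟩ := exists_xm φ ζ hζ
  set St := redStab (S := S) (M := M) φ with hSt
  haveI : Fintype (SL(2, ℤ) ⧸ CongruenceSubgroup.Gamma0 M) :=
    Subgroup.fintypeQuotientOfFiniteIndex
  set q₁ : SL(2, ℤ) ⧸ CongruenceSubgroup.Gamma0 M :=
      QuotientGroup.mk (1 : SL(2, ℤ))
  let Ω : Finset (SL(2, ℤ) ⧸ CongruenceSubgroup.Gamma0 M) :=
    Finset.univ.filter fun q => ∃ s ∈ St, s • q₁ = q
  have hst : ∀ s ∈ St, Ω.image (s⁻¹ • ·) = Ω := by
    intro s hs
    refine Finset.eq_of_subset_of_card_le (fun q hq => ?_)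
      (Finset.card_image_of_injective _ (MulAction.injective s⁻¹)).ge
    obtain ⟨q', hq', rfl⟩ := Finset.mem_image.1 hq
    obtain ⟨r, hr, rfl⟩ := (Finset.mem_filter.1 hq').2
    exact Finset.mem_filter.2 ⟨Finset.mem_univ _, s⁻¹ * r, mul_mem (inv_mem hs) hr, mul_smul _ _ _⟩
  set Q : Polynomial (modRing S M) :=
    ∏ q ∈ Ω, (Polynomial.X - Polynomial.C (tr q X)) with hQ
  have hQinv : ∀ s ∈ St, Q.map (transl s) = Q := by
    intro s hs
    conv_rhs => rw [hQ, ← hst s hs, Finset.prod_image fun a _ b _ h => MulAction.injective s⁻¹ h]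
    rw [hQ, Polynomial.map_prod]
    exact Finset.prod_congr rfl fun q _ => by
      rw [Polynomial.map_sub, Polynomial.map_X, Polynomial.map_C, transl_tr]
  have hbase : ∀ i, (Q.map (red φ)).coeff i ∈ baseField K M := fun i => by
    rw [Polynomial.coeff_map]
    exact red_mem_base φ ζ hζ ⟨Q.coeff i, mem_invRing.mpr fun s hs => by
      rw [← Polynomial.coeff_map, hQinv s hs]⟩
  obtain ⟨R, hR⟩ : ∃ R : Polynomial (baseField K M),
      R.map (algebraMap (baseField K M) (LaurentSeries K)) = Q.map (red φ) :=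
    (Polynomial.mem_lifts _).1 ((Polynomial.lifts_iff_coeff_lifts _).2 fun i => ⟨⟨_, hbase i⟩, rfl⟩)
  have hQm : Q.Monic := Polynomial.monic_prod_of_monic _ _ fun _ _ => Polynomial.monic_X_sub_C _
  have hRm : R.Monic := Polynomial.monic_of_injective
    (algebraMap (baseField K M) (LaurentSeries K)).injective (hR ▸ hQm.map _)
  have hroot : Polynomial.aeval (xS K M M) R = 0 := by
    rw [Polynomial.aeval_def, ← Polynomial.eval_map, hR, hQ, Polynomial.map_prod,
      Polynomial.eval_prod]
    refine Finset.prod_eq_zero (i := q₁)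
      (Finset.mem_filter.2 ⟨Finset.mem_univ _, 1, one_mem St, one_smul _ _⟩) ?_
    simp [q₁, tr_one, hX]
  have hdeg : dedekindPsi M ≤ Ω.card := by
    have h1 := Polynomial.natDegree_le_natDegree (minpoly.min _ (xS K M M) hRm hroot)
    rw [(good_of_dvd (isPrimitiveRoot_map φ ζ hζ hu) M dvd_rfl).natDegree,
      ← Polynomial.natDegree_map_eq_of_injective
        (algebraMap (baseField K M) (LaurentSeries K)).injective R, hR, hQm.natDegree_map, hQ,
      Polynomial.natDegree_prod_of_monic _ _ fun _ _ => Polynomial.monic_X_sub_C _] at h1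
    simpa using h1
  have huniv : Ω = Finset.univ := by
    refine Finset.eq_univ_of_card _ (le_antisymm (Finset.card_le_univ _) ?_)
    rw [← Nat.card_eq_fintype_card, ES.card_cosets_eq_psi]
    exact hdeg
  have hmemΩ : ((g⁻¹ : SL(2, ℤ)) : SL(2, ℤ) ⧸ CongruenceSubgroup.Gamma0 M) ∈ Ω := huniv ▸ Finset.mem_univ _
  obtain ⟨s, hs, he⟩ := (Finset.mem_filter.1 hmemΩ).2
  rw [MulAction.Quotient.smul_coe, smul_eq_mul, mul_one, QuotientGroup.eq] at he
  exact ⟨(s⁻¹ * g⁻¹)⁻¹, inv_mem he, by simpa using inv_mem hs⟩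

include hζ hu in
theorem conj_T_mem_redStab (g : SL(2, ℤ)) :
    g⁻¹ * ModularGroup.T * g ∈ redStab (S := S) (M := M) φ := by
  obtain ⟨h, hh, hs⟩ := exists_mul_redStab φ ζ hζ hu g
  set s := h⁻¹ * g with hsdef
  have hg : g = h * s := by rw [hsdef]; group
  suffices h⁻¹ * ModularGroup.T * h ∈ redStab (S := S) (M := M) φ by
    rw [hg, show (h * s)⁻¹ * ModularGroup.T * (h * s) = s⁻¹ * (h⁻¹ * ModularGroup.T * h) * s by group]
    exact mul_mem (mul_mem (inv_mem hs) this) hs
  set k : ℤ := h 1 1 * h 1 1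
  have hd : ((h 1 0 : ℤ) : ZMod M) = 0 := CongruenceSubgroup.Gamma0_mem.mp hh
  have hdet : ((h 0 0 : ℤ) : ZMod M) * (h 1 1 : ℤ) - (h 0 1 : ℤ) * (h 1 0 : ℤ) = 1 := by
    exact_mod_cast congrArg (fun x : ℤ => (x : ZMod M)) (det_eq h)
  have hmem : (ModularGroup.T ^ k)⁻¹ * (h⁻¹ * ModularGroup.T * h) ∈ CongruenceSubgroup.Gamma M := by
    rw [← zpow_neg, CongruenceSubgroup.Gamma_mem]
    simp only [Matrix.SpecialLinearGroup.coe_mul, Matrix.SpecialLinearGroup.coe_inv,
      Matrix.adjugate_fin_two, ModularGroup.coe_T_zpow, Matrix.mul_apply, Fin.sum_univ_two,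
      ModularGroup.coe_T, Matrix.cons_val', Matrix.cons_val_zero, Matrix.cons_val_one,
      Matrix.empty_val', Matrix.cons_val_fin_one, Matrix.of_apply, k]
    push_cast
    rw [hd] at hdet ⊢
    refine ⟨?_, ?_, ?_, ?_⟩ <;> ring_nf <;>
      first | linear_combination hdet | linear_combination -((h 1 1 : ℤ) : ZMod M) ^ 2 * hdet
  rw [← mul_inv_cancel_left (ModularGroup.T ^ k) (h⁻¹ * ModularGroup.T * h)]
  exact mul_mem (zpow_mem (T_mem_redStab φ ζ hζ) k) (Gamma_le_redStab φ hmem)

include ζ hζ hu in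
theorem redStab_eq_top : redStab (S := S) (M := M) φ = ⊤ := by
  rw [eq_top_iff, ← SpecialLinearGroup.SL2Z_generators, Subgroup.closure_le]
  have hT := T_mem_redStab (S := S) (M := M) φ ζ hζ
  rintro g (rfl | rfl)
  · have hL := inv_mem (conj_T_mem_redStab φ ζ hζ hu ModularGroup.S)
    have hS : ModularGroup.S = ModularGroup.T⁻¹ *
        (ModularGroup.S⁻¹ * ModularGroup.T * ModularGroup.S)⁻¹ * ModularGroup.T⁻¹ := by decide
    rw [SetLike.mem_coe, hS]
    exact mul_mem (mul_mem (inv_mem hT) hL) (inv_mem hT)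
  · exact hT

include ζ hζ hu in
/-- Vanishing of the reduced expansion is invariant under translation. -/
theorem red_transl_eq_zero (g : SL(2, ℤ)) {f : modRing S M} :
    red φ (transl g f) = 0 ↔ red φ f = 0 :=
  (show g ∈ redStab (S := S) (M := M) φ by rw [redStab_eq_top φ ζ hζ hu]; exact Subgroup.mem_top g) f

include ζ hζ hu in
/-- Invariant elements reduce into the field of `j`. -/
theorem red_mem_base_of_fixed {f : modRing S M} (hf : ∀ g, transl g f = f) :
    red φ f ∈ baseField K M :=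
  red_mem_base φ ζ hζ ⟨f, mem_invRing.mpr fun g _ => hf g⟩

end FLTAgent.DeligneSerre
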