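import Fermat.Agent.GoodModel.Level
import Fermat.Agent.GoodModel.Field
import Fermat.Agent.Carayol.Ring

/-!
# Functions of level `Γ(M)` with expansions over a subring of `ℂ` at all cusps

The group `SL(2, ℤ)` acts on this ring from the right; its invariants are the polynomials in `j`.
-/

set_option autoImplicit false
set_option linter.unusedSectionVars false

noncomputable section

open UpperHalfPlane hiding I I_re I_im
open Filter Topology Complex Function FLTAgent.ModEq FLTAgent.GoodModel ModularCurve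
open scoped MatrixGroups Manifold

namespace FLTAgent.DeligneSerre

/-- Functions invariant under `Γ(M)`. -/
def gammaInv (M : ℕ) : Subring (ℍ → ℂ) where
  carrier := {f | ∀ γ ∈ CongruenceSubgroup.Gamma M, ∀ τ : ℍ, f (γ • τ) = f τ}
  one_mem' := fun _ _ _ => rfl
  zero_mem' := fun _ _ _ => rfl
  add_mem' hf hg := fun γ hγ τ => by simp only [Pi.add_apply, hf γ hγ τ, hg γ hγ τ]
  mul_mem' hf hg := fun γ hγ τ => by simp only [Pi.mul_apply, hf γ hγ τ, hg γ hγ τ]
  neg_mem' hf := fun γ hγ τ => by simp only [Pi.neg_apply, hf γ hγ τ]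

/-- Functions of level `Γ(M)` all of whose translates have expansions over `S`. -/
def modRing (S : Subring ℂ) (M : ℕ) : Subring (ℍ → ℂ) := trRing S M ⊓ gammaInv M

variable {S : Subring ℂ} {M : ℕ}

theorem modRing_invariant (f : modRing S M) {γ : SL(2, ℤ)}
    (hγ : γ ∈ CongruenceSubgroup.Gamma M) (τ : ℍ) : (f : ℍ → ℂ) (γ • τ) = (f : ℍ → ℂ) τ :=
  f.2.2 γ hγ τ

theorem compg_mem_gammaInv {f : ℍ → ℂ} (hf : f ∈ gammaInv M) (g : SL(2, ℤ)) :
    compg g f ∈ gammaInv M := fun γ hγ τ => by
  have h : g * γ * g⁻¹ ∈ CongruenceSubgroup.Gamma M :=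
    (CongruenceSubgroup.Gamma_normal M).conj_mem γ hγ g
  simp only [compg_apply]
  rw [← hf _ h (g • τ), ← mul_smul, ← mul_smul, inv_mul_cancel_right]

/-- `f ↦ f ∘ g`. -/
def transl (g : SL(2, ℤ)) : modRing S M →+* modRing S M :=
  ((compg g).comp (modRing S M).subtype).codRestrict (modRing S M)
    fun f => ⟨compg_mem_trRing f.2.1 g, compg_mem_gammaInv f.2.2 g⟩

@[simp] theorem coe_transl (g : SL(2, ℤ)) (f : modRing S M) :
    (transl g f : ℍ → ℂ) = compg g (f : ℍ → ℂ) := rfl

theorem transl_apply (g : SL(2, ℤ)) (f : modRing S M) (τ : ℍ) :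
    (transl g f : ℍ → ℂ) τ = (f : ℍ → ℂ) (g • τ) := rfl

theorem transl_transl (g h : SL(2, ℤ)) (f : modRing S M) :
    transl g (transl h f) = transl (h * g) f := Subtype.ext (compg_compg g h _)

@[simp] theorem transl_one (f : modRing S M) : transl 1 f = f := Subtype.ext (compg_one _)

theorem transl_inv_transl (g : SL(2, ℤ)) (f : modRing S M) : transl g⁻¹ (transl g f) = f := by
  rw [transl_transl, mul_inv_cancel, transl_one]

theorem transl_of_mem_Gamma {g : SL(2, ℤ)} (hg : g ∈ CongruenceSubgroup.Gamma M)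
    (f : modRing S M) : transl g f = f :=
  Subtype.ext (funext fun τ => modRing_invariant f hg τ)

/-- The elements invariant under a group. -/
def invRing (H : Subgroup SL(2, ℤ)) : Subring (modRing S M) :=
  ⨅ h : H, RingHom.eqLocus (transl (h : SL(2, ℤ))) (RingHom.id (modRing S M))

theorem mem_invRing {H : Subgroup SL(2, ℤ)} {f : modRing S M} :
    f ∈ invRing H ↔ ∀ h ∈ H, transl h f = f := by
  simp only [invRing, Subring.mem_iInf, Subtype.forall]
  exact Iff.rfl

theorem invRing_le {H H' : Subgroup SL(2, ℤ)} (h : H ≤ H') :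
    invRing (S := S) (M := M) H' ≤ invRing H :=
  fun _ hf => mem_invRing.mpr fun g hg => mem_invRing.mp hf g (h hg)

variable [NeZero M]

/-- The expansion at `∞`. -/
def serM : modRing S M →+* LaurentSeries S :=
  ser.comp (Subring.inclusion (inf_le_left : modRing S M ≤ trRing S M))

theorem serM_spec (f : modRing S M) : ((f : ℍ → ℂ), serM f) ∈ sPairs S M :=
  ser_spec (Subring.inclusion (inf_le_left : modRing S M ≤ trRing S M) f)

theorem serM_eq {f : modRing S M} {G : LaurentSeries S} (h : ((f : ℍ → ℂ), G) ∈ sPairs S M) :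
    serM f = G :=
  sPairs_unique (serM_spec f) h

theorem serM_injective : Function.Injective (serM (S := S) (M := M)) := fun _ _ h =>
  Subtype.ext (congrArg (fun x : trRing S M => (x : ℍ → ℂ))
    (Carayol.ser_injective (S := S) (n := M) h))

section Red

variable {K : Type*} [Field K] (φ : S →+* K)

/-- The reduced expansion at `∞`. -/
def red : modRing S M →+* LaurentSeries K := (coeffMap φ).comp serM

theorem red_eq {f : modRing S M} {G : LaurentSeries S} (h : ((f : ℍ → ℂ), G) ∈ sPairs S M) :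
    red φ f = coeffMap φ G := by
  rw [red, RingHom.comp_apply, serM_eq h]

end Red

/-- Constants. -/
def constM : S →+* modRing S M :=
  ((Pi.constRingHom ℍ ℂ).comp S.subtype).codRestrict (modRing S M) fun c =>
    ⟨mem_trRing.mpr fun _ => ⟨HahnSeries.C c, sPairs_const (S := S) (n := M) c⟩, fun _ _ _ => rfl⟩

@[simp] theorem coe_constM (c : S) : (constM (M := M) c : ℍ → ℂ) = fun _ => (c : ℂ) := rfl

@[simp] theorem transl_constM (g : SL(2, ℤ)) (c : S) :
    transl g (constM (M := M) c) = constM c := rfl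

theorem serM_constM (c : S) : serM (constM (M := M) c) = HahnSeries.C c :=
  serM_eq (sPairs_const c)

theorem red_constM {K : Type*} [Field K] (φ : S →+* K) (c : S) :
    red φ (constM (M := M) c) = HahnSeries.C (φ c) := by
  rw [red, RingHom.comp_apply, serM_constM, HahnSeries.C_apply, coeffMap_single]
  rfl

section WithRoot

variable (ζ : Sˣ) (hζ : ((ζ : S) : ℂ) = zetaN M)

include hζ in
/-- The invariant `j` and its expansion. -/
theorem exists_jm : ∃ J : modRing S M, (J : ℍ → ℂ) = jFun ∧
    ((J : ℍ → ℂ), jAt (1 : Sˣ) M) ∈ sPairs S M := by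
  have h := sPairs_jFun_affPt ζ hζ 1 0 1 M (one_mul M)
  have e : (fun τ : ℍ => jFun (affPt 1 0 1 τ)) = jFun := funext fun τ => by
    congr 1
    exact UpperHalfPlane.ext (by simp [coe_affPt])
  rw [e, mul_zero, zpow_zero, one_mul] at h
  have hmem : jFun ∈ modRing S M := ⟨mem_trRing.mpr fun σ => ⟨jAt (1 : Sˣ) M, by
    rw [show compg σ jFun = jFun from funext fun τ => jFun_smul σ τ]
    exact h⟩, fun γ _ τ => jFun_smul γ τ⟩
  exact ⟨⟨jFun, hmem⟩, rfl, h⟩

/-- The invariant `j`. -/
def jm : modRing S M := (exists_jm ζ hζ).choose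

theorem coe_jm : (jm ζ hζ : ℍ → ℂ) = jFun := (exists_jm ζ hζ).choose_spec.1

theorem serM_jm : serM (jm ζ hζ) = jAt (1 : Sˣ) M :=
  serM_eq (exists_jm ζ hζ).choose_spec.2

theorem red_jm {K : Type*} [Field K] (φ : S →+* K) : red φ (jm ζ hζ) = jAt (1 : Kˣ) M := by
  rw [red, RingHom.comp_apply, serM_jm, coeffMap_jAt, map_one]

theorem transl_jm (g : SL(2, ℤ)) : transl g (jm ζ hζ) = jm ζ hζ :=
  Subtype.ext (funext fun τ => by rw [transl_apply, coe_jm, jFun_smul])

include hζ in
theorem exists_poly_of_geOrd : ∀ (D : ℕ) {f : modRing S M}, (∀ g, transl g f = f) →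
    GeOrd (serM f) (-((M * D : ℕ) : ℤ)) →
      ∃ P : Polynomial S, P.eval₂ constM (jm ζ hζ) = f := by
  intro D
  induction D with
  | zero =>
    intro f hinv hD
    simp only [mul_zero, Nat.cast_zero, neg_zero] at hD
    have hs := mem_sPairs.mp (serM_spec f)
    have h0 : IsBoundedAtImInfty (f : ℍ → ℂ) := hs.2.isBoundedAtImInfty fun k hk => by
      rw [coeffMap_coeff, hD k hk, map_zero]
    have hall : ∀ σ : SL(2, ℤ), IsBoundedAtImInfty fun τ => (f : ℍ → ℂ) (σ • τ) := fun σ => by
      refine h0.congr_left fun τ => ?_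
      have := congrFun (congrArg (fun x : modRing S M => (x : ℍ → ℂ)) (hinv σ)) τ
      exact this.symm
    obtain ⟨c, hc⟩ := invariant_const (Γ := ⊤)
      (fun γ _ τ => congrFun (congrArg Subtype.val (hinv γ)) τ) hs.1 hall
    refine ⟨Polynomial.C ((serM f).coeff 0), ?_⟩
    rw [Polynomial.eval₂_C]
    refine Subtype.ext ?_
    replace hc : (f : ℍ → ℂ) = Function.const _ c := hc
    have h4 : HasExp M (f : ℍ → ℂ) (HahnSeries.C c) := by
      rw [hc]; exact HasExp.const c
    have h2 := hs.2.unique h4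
    have h3 := congrArg (fun G : LaurentSeries ℂ => G.coeff 0) h2
    simp only [coeffMap_coeff, HahnSeries.C_apply, HahnSeries.coeff_single_same] at h3
    rw [coe_constM, hc]
    funext τ
    exact h3
  | succ D ih =>
    intro f hinv hD
    set a := (serM f).coeff (-((M * (D + 1) : ℕ) : ℤ)) with ha
    set y := constM a * jm ζ hζ ^ (D + 1) with hy
    have hinv' : ∀ g, transl g (f - y) = f - y := fun g => by
      rw [map_sub, hinv g, hy, map_mul, map_pow, transl_constM, transl_jm]
    have hM : (0 : ℤ) < M := by exact_mod_cast Nat.pos_of_ne_zero (NeZero.ne M)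
    have hper : ∀ τ, ((f - y : modRing S M) : ℍ → ℂ) (((1 : ℕ) : ℝ) +ᵥ τ) =
        ((f - y : modRing S M) : ℍ → ℂ) τ := fun τ => by
      rw [Nat.cast_one, ← UpperHalfPlane.modular_T_smul]
      exact congrFun (congrArg Subtype.val (hinv' ModularGroup.T)) τ
    have hG : GeOrd (serM (f - y)) (-((M * D : ℕ) : ℤ)) := by
      intro k hk
      by_cases hd : (M : ℤ) ∣ k
      swap
      · refine Subtype.val_injective ?_
        have := coeff_eq_zero_of_periodic (one_mul M) (mem_sPairs.mp (serM_spec (f - y))).2 hper hd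
        simpa [coeffMap_coeff] using this
      obtain ⟨i, rfl⟩ := hd
      have hi : i ≤ -((D + 1 : ℕ) : ℤ) := by
        push_cast at hk ⊢
        nlinarith
      have hJ : GeOrd (jAt (1 : Sˣ) M ^ (D + 1)) (((D + 1 : ℕ) : ℤ) * -(M : ℤ)) :=
        (geOrd_jAt (1 : Sˣ) M).pow _
      rw [map_sub, hy, map_mul, map_pow, serM_constM, serM_jm, HahnSeries.coeff_sub,
        HahnSeries.C_apply, HahnSeries.coeff_single_mul, sub_zero]
      rcases eq_or_lt_of_le hi with rfl | hi
      · rw [show (M : ℤ) * -((D + 1 : ℕ) : ℤ) = ((D + 1 : ℕ) : ℤ) * -(M : ℤ) by ring,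
          (geOrd_jAt (1 : Sˣ) M).coeff_pow, jAt_coeff_neg, inv_one, Units.val_one, one_pow,
          mul_one, ha, show ((D + 1 : ℕ) : ℤ) * -(M : ℤ) = -((M * (D + 1) : ℕ) : ℤ) by
            push_cast; ring, sub_self]
      · rw [hJ _ (by push_cast at hi ⊢; nlinarith), mul_zero,
          hD _ (by push_cast at hi ⊢; nlinarith), sub_zero]
    obtain ⟨P, hP⟩ := ih hinv' hG
    refine ⟨P + Polynomial.C a * Polynomial.X ^ (D + 1), ?_⟩
    rw [Polynomial.eval₂_add, hP, Polynomial.eval₂_mul, Polynomial.eval₂_C, Polynomial.eval₂_X_pow,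
      ← hy, sub_add_cancel]

include hζ in
/-- The invariants are the polynomials in `j`. -/
theorem exists_poly_of_fixed {f : modRing S M} (hinv : ∀ g, transl g f = f) :
    ∃ P : Polynomial S, P.eval₂ constM (jm ζ hζ) = f := by
  refine exists_poly_of_geOrd ζ hζ (-(serM f).order).toNat hinv fun i hi => ?_
  refine HahnSeries.coeff_eq_zero_of_lt_order ?_
  have : (-(serM f).order).toNat ≤ M * (-(serM f).order).toNat :=
    Nat.le_mul_of_pos_left _ (Nat.pos_of_ne_zero (NeZero.ne M))
  omega

end WithRoot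

end FLTAgent.DeligneSerre
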